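/-
MLT / MO (helper3), part 1: **relative multiplicity one, the abstract linear algebra**.

Three levels `H₀ = H(N)`, `H₁ = H(N q)`, `H₂ = H(N q²)` (`q ∤ N`), the two degeneracy maps
`r₁, d₁ : H₀ → H₁`, `r₂, d₂ : H₁ → H₂`, the Hecke operators `T = T_q` on `H₀`, `U₁ = U_q` on `H₁`,
`U₂ = U_q` on `H₂` with the identities of `Lib/MLT/Eta/Uq.lean` (`MltmoDeg`), bilinear forms
`B₀, B₁, B₂` for which `T`, `U₂` are self-adjoint and the degeneracy maps have adjoints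
`r₁', d₁' : H₁ → H₀`, `r₂', d₂' : H₂ → H₁` (`MltmoAdj`).

With `θ₁ = r₁' r₂'`, `θ₂ = d₁' r₂'`, `θ₃ = d₁' d₂'` (the three traces `H₂ → H₀`):

* `mltmo_theta_U`  : `Θ ∘ U₂ = A ∘ Θ`, `A = [[T, -1, 0], [q, 0, 0], [0, q, 0]]`;
* `mltmo_theta_inj` : if there is no non-zero `q`-new vector in `E₁ ⊆ H₁` and no non-zero `q²`-new
  vector in `E₂ ⊆ H₂`, then `Θ = (θ₁, θ₂, θ₃)` is injective on `E₂`;
* `mltmo_abs`      : if moreover `q` is a unit, then for every `y ∈ E₂` on which `U₂` is topologically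
  nilpotent: `U₂ y = 0`, `θ₁ y = θ₂ y = 0`, and `θ₃ y = 0 → y = 0`.
-/
import Mathlib
import Fermat.Agent.Lib.Ihara.H4.Part

set_option autoImplicit false
set_option linter.unusedSectionVars false
set_option linter.unusedVariables false

namespace Fermat.Agent.MLT

open Fermat.Agent.Ihara

section Abs

variable {O : Type*} [CommRing O]
  {H₀ H₁ H₂ : Type*} [AddCommGroup H₀] [Module O H₀] [AddCommGroup H₁] [Module O H₁]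
  [AddCommGroup H₂] [Module O H₂]

/-- the degeneracy identities between the levels `N`, `N q`, `N q²` -/
structure MltmoDeg (q : O) (r₁ d₁ : H₀ →ₗ[O] H₁) (r₂ d₂ : H₁ →ₗ[O] H₂)
    (T : H₀ →ₗ[O] H₀) (U₁ : H₁ →ₗ[O] H₁) (U₂ : H₂ →ₗ[O] H₂) : Prop where
  U2_r2 : ∀ c, U₂ (r₂ c) = r₂ (U₁ c)
  U2_d2 : ∀ c, U₂ (d₂ c) = q • r₂ c
  U1_r1 : ∀ x, U₁ (r₁ x) = r₁ (T x) - d₁ x
  U1_d1 : ∀ x, U₁ (d₁ x) = q • r₁ x
  d2_r1 : ∀ x, d₂ (r₁ x) = r₂ (d₁ x)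

/-- the adjointness relations -/
structure MltmoAdj (B₀ : H₀ →ₗ[O] H₀ →ₗ[O] O) (B₁ : H₁ →ₗ[O] H₁ →ₗ[O] O)
    (B₂ : H₂ →ₗ[O] H₂ →ₗ[O] O) (r₁ d₁ : H₀ →ₗ[O] H₁) (r₂ d₂ : H₁ →ₗ[O] H₂)
    (r₁' d₁' : H₁ →ₗ[O] H₀) (r₂' d₂' : H₂ →ₗ[O] H₁)
    (T : H₀ →ₗ[O] H₀) (U₂ : H₂ →ₗ[O] H₂) : Prop where
  nondeg : ∀ z : H₀, (∀ x, B₀ x z = 0) → z = 0
  adj_r1 : ∀ x c, B₁ (r₁ x) c = B₀ x (r₁' c)
  adj_d1 : ∀ x c, B₁ (d₁ x) c = B₀ x (d₁' c)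
  adj_r2 : ∀ c y, B₂ (r₂ c) y = B₁ c (r₂' y)
  adj_d2 : ∀ c y, B₂ (d₂ c) y = B₁ c (d₂' y)
  adj_T : ∀ x z, B₀ (T x) z = B₀ x (T z)
  adj_U2 : ∀ y y', B₂ (U₂ y) y' = B₂ y (U₂ y')

variable {q : O} {r₁ d₁ : H₀ →ₗ[O] H₁} {r₂ d₂ : H₁ →ₗ[O] H₂}
  {T : H₀ →ₗ[O] H₀} {U₁ : H₁ →ₗ[O] H₁} {U₂ : H₂ →ₗ[O] H₂}
  {B₀ : H₀ →ₗ[O] H₀ →ₗ[O] O} {B₁ : H₁ →ₗ[O] H₁ →ₗ[O] O} {B₂ : H₂ →ₗ[O] H₂ →ₗ[O] O}
  {r₁' d₁' : H₁ →ₗ[O] H₀} {r₂' d₂' : H₂ →ₗ[O] H₁}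
  (hD : MltmoDeg q r₁ d₁ r₂ d₂ T U₁ U₂)
  (hA : MltmoAdj B₀ B₁ B₂ r₁ d₁ r₂ d₂ r₁' d₁' r₂' d₂' T U₂)

include hD hA

/-- the adjoint of `d₂ r₁ = r₂ d₁` -/
theorem mltmo_adj_mid (y : H₂) : r₁' (d₂' y) = d₁' (r₂' y) := by
  rw [← sub_eq_zero]
  apply hA.nondeg
  intro x
  rw [map_sub, ← hA.adj_r1, ← hA.adj_d2, ← hA.adj_d1, ← hA.adj_r2, hD.d2_r1, sub_self]

/-- `θ₁ ∘ U₂ = T θ₁ - θ₂` -/
theorem mltmo_theta1_U (y : H₂) :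
    r₁' (r₂' (U₂ y)) = T (r₁' (r₂' y)) - d₁' (r₂' y) := by
  rw [← sub_eq_zero]
  apply hA.nondeg
  intro x
  have e1 : B₀ x (r₁' (r₂' (U₂ y))) = B₂ (r₂ (r₁ (T x))) y - B₂ (r₂ (d₁ x)) y := by
    rw [← hA.adj_r1, ← hA.adj_r2, ← hA.adj_U2, hD.U2_r2, hD.U1_r1, map_sub, map_sub,
      LinearMap.sub_apply]
  have e2 : B₀ x (T (r₁' (r₂' y))) = B₂ (r₂ (r₁ (T x))) y := by
    rw [← hA.adj_T, ← hA.adj_r1, ← hA.adj_r2]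
  have e3 : B₀ x (d₁' (r₂' y)) = B₂ (r₂ (d₁ x)) y := by
    rw [← hA.adj_d1, ← hA.adj_r2]
  rw [map_sub, map_sub, e1, e2, e3, sub_self]

/-- `θ₂ ∘ U₂ = q θ₁` -/
theorem mltmo_theta2_U (y : H₂) : d₁' (r₂' (U₂ y)) = q • r₁' (r₂' y) := by
  rw [← sub_eq_zero]
  apply hA.nondeg
  intro x
  have e1 : B₀ x (d₁' (r₂' (U₂ y))) = q • B₂ (r₂ (r₁ x)) y := by
    rw [← hA.adj_d1, ← hA.adj_r2, ← hA.adj_U2, hD.U2_r2, hD.U1_d1, map_smul, map_smul,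
      LinearMap.smul_apply]
  have e2 : B₀ x (q • r₁' (r₂' y)) = q • B₂ (r₂ (r₁ x)) y := by
    rw [map_smul, ← hA.adj_r1, ← hA.adj_r2]
  rw [map_sub, e1, e2, sub_self]

/-- `θ₃ ∘ U₂ = q θ₂` -/
theorem mltmo_theta3_U (y : H₂) : d₁' (d₂' (U₂ y)) = q • d₁' (r₂' y) := by
  rw [← sub_eq_zero]
  apply hA.nondeg
  intro x
  have e1 : B₀ x (d₁' (d₂' (U₂ y))) = q • B₂ (r₂ (d₁ x)) y := by
    rw [← hA.adj_d1, ← hA.adj_d2, ← hA.adj_U2, hD.U2_d2, map_smul, LinearMap.smul_apply]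
  have e2 : B₀ x (q • d₁' (r₂' y)) = q • B₂ (r₂ (d₁ x)) y := by
    rw [map_smul, ← hA.adj_d1, ← hA.adj_r2]
  rw [map_sub, e1, e2, sub_self]

/-- **injectivity of the three traces** on a subspace without new vectors -/
theorem mltmo_theta_inj (E₁ : Submodule O H₁) (E₂ : Submodule O H₂)
    (hr : ∀ y ∈ E₂, r₂' y ∈ E₁) (hd : ∀ y ∈ E₂, d₂' y ∈ E₁)
    (h1 : ∀ c ∈ E₁, r₁' c = 0 → d₁' c = 0 → c = 0)
    (h2 : ∀ y ∈ E₂, r₂' y = 0 → d₂' y = 0 → y = 0)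
    {y : H₂} (hy : y ∈ E₂) (e1 : r₁' (r₂' y) = 0) (e2 : d₁' (r₂' y) = 0)
    (e3 : d₁' (d₂' y) = 0) : y = 0 := by
  refine h2 y hy (h1 _ (hr y hy) e1 e2) (h1 _ (hd y hy) ?_ e3)
  rw [mltmo_adj_mid hD hA, e2]

end Abs

section Nil

variable {O : Type*} [CommRing O] {H₀ : Type*} [AddCommGroup H₀] [Module O H₀]

/-- the matrix `A = [[T, -1, 0], [q, 0, 0], [0, q, 0]]` of `U₂` on the three traces -/
def mltmoA (q : O) (T : H₀ →ₗ[O] H₀) : (H₀ × H₀ × H₀) →ₗ[O] (H₀ × H₀ × H₀) where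
  toFun v := (T v.1 - v.2.1, q • v.1, q • v.2.1)
  map_add' v w := by
    refine Prod.ext ?_ (Prod.ext ?_ ?_)
    · simp only [Prod.fst_add, Prod.snd_add, map_add]; abel
    · simp only [Prod.fst_add, Prod.snd_add, smul_add]
    · simp only [Prod.fst_add, Prod.snd_add, smul_add]
  map_smul' c v := by
    refine Prod.ext ?_ (Prod.ext ?_ ?_)
    · simp only [Prod.smul_fst, Prod.smul_snd, map_smul, RingHom.id_apply, smul_sub]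
    · simp only [Prod.smul_fst, Prod.smul_snd, RingHom.id_apply, smul_comm c q]
    · simp only [Prod.smul_fst, Prod.smul_snd, RingHom.id_apply, smul_comm c q]

@[simp] theorem mltmoA_apply (q : O) (T : H₀ →ₗ[O] H₀) (v : H₀ × H₀ × H₀) :
    mltmoA q T v = (T v.1 - v.2.1, q • v.1, q • v.2.1) := rfl

/-- `F = q⁻¹ (T - A)` -/
def mltmoF (q q' : O) (T : H₀ →ₗ[O] H₀) : (H₀ × H₀ × H₀) →ₗ[O] (H₀ × H₀ × H₀) :=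
  q' • (T.prodMap (T.prodMap T) - mltmoA q T)

theorem mltmoF_apply (q q' : O) (T : H₀ →ₗ[O] H₀) (v : H₀ × H₀ × H₀) :
    mltmoF q q' T v
      = (q' • (T v.1 - (T v.1 - v.2.1)), q' • (T v.2.1 - q • v.1), q' • (T v.2.2 - q • v.2.1)) :=
  rfl

/-- `A (A² - T A + q) = 0` in the form `A v = F (A (A v))` -/
theorem mltmoA_rel {q q' : O} (hq : q' * q = 1) (T : H₀ →ₗ[O] H₀) (v : H₀ × H₀ × H₀) :
    mltmoF q q' T (mltmoA q T (mltmoA q T v)) = mltmoA q T v := by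
  obtain ⟨v₁, v₂, v₃⟩ := v
  have e : ∀ z : H₀, q' • q • z = z := fun z => by rw [smul_smul, hq, one_smul]
  rw [mltmoF_apply]
  refine Prod.ext ?_ (Prod.ext ?_ ?_)
  · show q' • (T _ - (T _ - q • (T v₁ - v₂))) = T v₁ - v₂
    rw [sub_sub_cancel, e]
  · show q' • (T (q • (T v₁ - v₂)) - q • (T (T v₁ - v₂) - q • v₁)) = q • v₁
    rw [map_smul, ← smul_sub, sub_sub_cancel, e]
  · show q' • (T (q • q • v₁) - q • q • (T v₁ - v₂)) = q • v₂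
    rw [map_smul, map_smul, ← smul_sub, ← smul_sub, sub_sub_cancel, e]

/-- iteration: `A v = Fⁿ (Aⁿ (A v))` -/
theorem mltmoA_rel_pow {q q' : O} (hq : q' * q = 1) (T : H₀ →ₗ[O] H₀) (v : H₀ × H₀ × H₀)
    (n : ℕ) : (mltmoF q q' T ^ n) ((mltmoA q T ^ n) (mltmoA q T v)) = mltmoA q T v := by
  induction n generalizing v with
  | zero => simp
  | succ k ih =>
    rw [pow_succ, Module.End.mul_apply, pow_succ', Module.End.mul_apply]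
    have h1 : (mltmoA q T ^ k) (mltmoA q T v) = mltmoA q T ((mltmoA q T ^ k) v) := by
      rw [← Module.End.mul_apply, ← pow_succ, pow_succ', Module.End.mul_apply]
    rw [h1, mltmoA_rel hq, ← h1]
    exact ih v

end Nil

section Main

variable {O : Type*} [CommRing O]
  {H₀ H₁ H₂ : Type*} [AddCommGroup H₀] [Module O H₀] [AddCommGroup H₁] [Module O H₁]
  [AddCommGroup H₂] [Module O H₂]
  {q : O} {r₁ d₁ : H₀ →ₗ[O] H₁} {r₂ d₂ : H₁ →ₗ[O] H₂}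
  {T : H₀ →ₗ[O] H₀} {U₁ : H₁ →ₗ[O] H₁} {U₂ : H₂ →ₗ[O] H₂}
  {B₀ : H₀ →ₗ[O] H₀ →ₗ[O] O} {B₁ : H₁ →ₗ[O] H₁ →ₗ[O] O} {B₂ : H₂ →ₗ[O] H₂ →ₗ[O] O}
  {r₁' d₁' : H₁ →ₗ[O] H₀} {r₂' d₂' : H₂ →ₗ[O] H₁}
  (hD : MltmoDeg q r₁ d₁ r₂ d₂ T U₁ U₂)
  (hA : MltmoAdj B₀ B₁ B₂ r₁ d₁ r₂ d₂ r₁' d₁' r₂' d₂' T U₂)

include hD hA in
/-- **relative multiplicity one, abstract form**: on the part of `E₂` where `U₂` is topologically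
nilpotent, `U₂ = 0`, the first two traces vanish and the third trace `θ₃ = d₁' d₂'` is injective -/
theorem mltmo_abs {q' : O} (hq : q' * q = 1) (𝔪 : Ideal O)
    (hK : ∀ z : H₀, (∀ n : ℕ, z ∈ 𝔪 ^ n • (⊤ : Submodule O H₀)) → z = 0)
    (E₁ : Submodule O H₁) (E₂ : Submodule O H₂)
    (hr : ∀ y ∈ E₂, r₂' y ∈ E₁) (hd : ∀ y ∈ E₂, d₂' y ∈ E₁) (hU : ∀ y ∈ E₂, U₂ y ∈ E₂)
    (h1 : ∀ c ∈ E₁, r₁' c = 0 → d₁' c = 0 → c = 0)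
    (h2 : ∀ y ∈ E₂, r₂' y = 0 → d₂' y = 0 → y = 0)
    {y : H₂} (hy : y ∈ E₂) (hnil : y ∈ ih4pNil1 𝔪 U₂) :
    U₂ y = 0 ∧ r₁' (r₂' y) = 0 ∧ d₁' (r₂' y) = 0 ∧ (d₁' (d₂' y) = 0 → y = 0) := by
  set Θ : H₂ →ₗ[O] (H₀ × H₀ × H₀) :=
    (r₁' ∘ₗ r₂').prod ((d₁' ∘ₗ r₂').prod (d₁' ∘ₗ d₂')) with hΘ
  have hΘa : ∀ z, Θ z = (r₁' (r₂' z), d₁' (r₂' z), d₁' (d₂' z)) := fun z => rfl
  have hΘU : ∀ z, Θ (U₂ z) = mltmoA q T (Θ z) := by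
    intro z
    rw [hΘa, hΘa, mltmoA_apply, mltmo_theta1_U hD hA, mltmo_theta2_U hD hA,
      mltmo_theta3_U hD hA]
  have hpow : ∀ (n : ℕ) (z : H₂), Θ ((U₂ ^ n) z) = (mltmoA q T ^ n) (Θ z) :=
    fun n z => ih4p_intertwine_pow hΘU n z
  -- `Θ (U₂ y)` is infinitely divisible
  have hdiv : ∀ k : ℕ, Θ (U₂ y) ∈ 𝔪 ^ k • (⊤ : Submodule O (H₀ × H₀ × H₀)) := by
    intro k
    obtain ⟨N, hN⟩ := hnil k
    have h3 : (U₂ ^ N) (U₂ y) ∈ 𝔪 ^ k • (⊤ : Submodule O H₂) := by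
      have := ih4p_pow_apply_mem_of_le 𝔪 U₂ (Nat.le_succ N) hN
      rwa [pow_succ, Module.End.mul_apply] at this
    have h4 := mltmoA_rel_pow hq T (Θ y) N
    rw [← hΘU, ← hpow] at h4
    rw [← h4]
    exact ih4p_map_mem_smul_top ((mltmoF q q' T ^ N) ∘ₗ Θ) _ h3
  have hcomp : ∀ z : H₀ × H₀ × H₀,
      (∀ k : ℕ, z ∈ 𝔪 ^ k • (⊤ : Submodule O (H₀ × H₀ × H₀))) → z = 0 := by
    intro z hz
    refine Prod.ext ?_ (Prod.ext ?_ ?_)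
    · exact hK _ fun k => ih4p_map_mem_smul_top (LinearMap.fst O H₀ (H₀ × H₀)) _ (hz k)
    · exact hK _ fun k => ih4p_map_mem_smul_top
        ((LinearMap.fst O H₀ H₀) ∘ₗ (LinearMap.snd O H₀ (H₀ × H₀))) _ (hz k)
    · exact hK _ fun k => ih4p_map_mem_smul_top
        ((LinearMap.snd O H₀ H₀) ∘ₗ (LinearMap.snd O H₀ (H₀ × H₀))) _ (hz k)
  have h0 : Θ (U₂ y) = 0 := hcomp _ hdiv
  rw [hΘa] at h0
  have e1 : r₁' (r₂' (U₂ y)) = 0 := congrArg Prod.fst h0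
  have e2 : d₁' (r₂' (U₂ y)) = 0 := congrArg (fun z => z.2.1) h0
  have e3 : d₁' (d₂' (U₂ y)) = 0 := congrArg (fun z => z.2.2) h0
  have hUy : U₂ y = 0 := mltmo_theta_inj hD hA E₁ E₂ hr hd h1 h2 (hU y hy) e1 e2 e3
  have hθ1 : r₁' (r₂' y) = 0 := by
    have h5 := mltmo_theta2_U hD hA y
    rw [e2] at h5
    have h6 : q' • q • r₁' (r₂' y) = r₁' (r₂' y) := by rw [smul_smul, hq, one_smul]
    rw [← h6, ← h5, smul_zero]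
  have hθ2 : d₁' (r₂' y) = 0 := by
    have h5 := mltmo_theta1_U hD hA y
    rw [e1, hθ1, map_zero, zero_sub] at h5
    exact neg_eq_zero.mp h5.symm
  exact ⟨hUy, hθ1, hθ2, fun e => mltmo_theta_inj hD hA E₁ E₂ hr hd h1 h2 hy hθ1 hθ2 e⟩

end Main

end Fermat.Agent.MLT
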