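/-
MLT / MO (helper3), part 4: **the trace `Γ₀(N q²) → Γ₀(N q)` and the Atkin–Lehner involutions**.

Levels `N q` and `N q²` (`q ∤ N`).  `u₂ = cor_U` is helper4's transfer with the representatives of `U_q`
(`t4gSysCU`, `U_q = res ∘ cor_U`), `c₂` helper1's genuine transfer (`mlteSysC`), `W₂ = W_{q²}` the
Atkin–Lehner involution of level `N q²` (`t4gSysW`), `W₁ = w_q` the one of level `N q` (`t2fSysW`).

* `mltmo_W2_mul_repU` : `W₂ · [[1, j], [0, q]] = q · G_j · W₁` with `G_j ∈ Γ₀(N q)`;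
* `mltmo_exists_pi`   : `G_j = g_j · c_{π j}` with `g_j ∈ Γ₀(N q²)`, `c_k = [[1, 0], [-N q k, 1]]` the
  representatives of `c₂`, and `π` a permutation;
* **`mltmo_corU_W2`** : `cor_U ∘ W₂ = W₁ ∘ c₂` on `Hom(Γ₀(N q²), A)`;
* `mltmo_U_W2`        : `U_q ∘ W₂ = res ∘ W₁ ∘ c₂`, hence `c₂ φ = 0 → U_q (W₂ φ) = 0`.
-/
import Mathlib
import Fermat.Agent.Lib.T4.G.ALsq
import Fermat.Agent.Lib.T4.G.CorU
import Fermat.Agent.Lib.MLT.Eta.CorS

set_option autoImplicit false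
set_option linter.unusedSectionVars false
set_option linter.unusedVariables false
set_option linter.style.haveILetI false

open Matrix MatrixGroups CongruenceSubgroup Fermat.Agent.T1 Fermat.Agent.T2 Fermat.Agent.T4
  ModularCurve ModularCurve.Period Fermat.Agent.LR

namespace Fermat.Agent.MLT

noncomputable section

section Mat

variable (N q : ℕ)

/-- the matrix `G_j` with `W_{q²} · [[1, j], [0, q]] = q · G_j · W_q` -/
def mltmoG (j : ℤ) : Matrix (Fin 2) (Fin 2) ℤ :=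
  !![(q : ℤ) * t2wA N (q * q) - N * t2wC N q * ((q : ℤ) * t2wA N (q * q) * j + 1),
      -t2wA N (q * q) + t2wA N q * ((q : ℤ) * t2wA N (q * q) * j + 1);
    (N : ℤ) * q * (t2wC N (q * q) - t2wC N q * ((N : ℤ) * t2wC N (q * q) * j + q)),
      -((N : ℤ) * t2wC N (q * q)) + t2wA N q * ((N : ℤ) * q * t2wC N (q * q) * j + (q : ℤ) ^ 2)]

/-- the matrix `Z_j = G_j · W_q` -/
def mltmoZ (j : ℤ) : Matrix (Fin 2) (Fin 2) ℤ :=
  !![(q : ℤ) * t2wA N (q * q), (q : ℤ) * t2wA N (q * q) * j + 1;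
    (N : ℤ) * q * t2wC N (q * q), (N : ℤ) * q * t2wC N (q * q) * j + (q : ℤ) ^ 2]

theorem mltmo_W2_mul_repU (j : Fin q) :
    t2wMat N (q * q) (t2wA N (q * q)) (t2wC N (q * q)) * tdmRepU q j
      = (q : ℤ) • mltmoZ N q ((j : ℕ) : ℤ) := by
  rw [t2wMat, tdmRepU, mltmoZ]
  ext a b
  fin_cases a <;> fin_cases b <;> simp [Matrix.mul_apply, Fin.sum_univ_two] <;> ring

theorem mltmoG_mul_W1 (hb : (q : ℤ) * t2wA N q - N * t2wC N q = 1) (j : ℤ) :
    mltmoG N q j * t2wMat N q (t2wA N q) (t2wC N q) = mltmoZ N q j := by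
  rw [t2wMat, mltmoG, mltmoZ]
  ext a b
  fin_cases a <;> fin_cases b <;> simp [Matrix.mul_apply, Fin.sum_univ_two]
  · linear_combination ((q : ℤ) * t2wA N (q * q)) * hb
  · linear_combination ((q : ℤ) * t2wA N (q * q) * j + 1) * hb
  · linear_combination ((N : ℤ) * q * t2wC N (q * q)) * hb
  · linear_combination ((q : ℤ) * ((N : ℤ) * t2wC N (q * q) * j + q)) * hb

theorem mltmoZ_det (hb2 : ((q * q : ℕ) : ℤ) * t2wA N (q * q) - N * t2wC N (q * q) = 1) (j : ℤ) :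
    (mltmoZ N q j).det = q := by
  rw [mltmoZ, Matrix.det_fin_two_of]
  push_cast at hb2
  linear_combination (q : ℤ) * hb2

theorem mltmoG_det (hq0 : q ≠ 0) (hb : (q : ℤ) * t2wA N q - N * t2wC N q = 1)
    (hb2 : ((q * q : ℕ) : ℤ) * t2wA N (q * q) - N * t2wC N (q * q) = 1) (j : ℤ) :
    (mltmoG N q j).det = 1 := by
  have h1 := congrArg Matrix.det (mltmoG_mul_W1 N q hb j)
  rw [Matrix.det_mul, t2wMat_det N q _ _ hb, mltmoZ_det N q hb2] at h1
  have hq : (q : ℤ) ≠ 0 := by exact_mod_cast hq0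
  exact mul_right_cancel₀ hq (by rw [h1, one_mul])

end Mat

section Reps

variable (N q : ℕ) [NeZero N] [hq : Fact q.Prime] (h : ¬ q ∣ N)

/-- `q ∣ N q` -/
theorem mltmo_q_dvd : q ∣ N * q := Dvd.intro_left N rfl

local notation "W₁m" => t2wMat N q (t2wA N q) (t2wC N q)
local notation "W₂m" => t2wMat N (q * q) (t2wA N (q * q)) (t2wC N (q * q))

/-- `G_j` as an element of `SL₂(ℤ)` -/
def mltmoGsl (j : ℤ) : SL(2, ℤ) :=
  ⟨mltmoG N q j, mltmoG_det N q hq.out.ne_zero (t2w_bezout N q hq.out h) (t4g_bezout N q h) j⟩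

/-- `G_j` as an element of `Γ₀(N q)` -/
def mltmoGel (j : ℤ) : Gamma0 (N * q) :=
  ⟨mltmoGsl N q h j, (tdm_mem_Gamma0_iff _).mpr (by
    show ((N * q : ℕ) : ℤ) ∣ mltmoG N q j 1 0
    refine ⟨t2wC N (q * q) - t2wC N q * ((N : ℤ) * t2wC N (q * q) * j + q), ?_⟩
    simp [mltmoG])⟩

theorem mltmoGel_coe (j : ℤ) :
    (((mltmoGel N q h j : Gamma0 (N * q)) : SL(2, ℤ)) : Matrix (Fin 2) (Fin 2) ℤ) = mltmoG N q j :=
  rfl

/-- `W₂ · [[1, j], [0, q]] = q · G_j · W₁` -/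
theorem mltmo_W2_repU_eq (j : Fin q) :
    W₂m * tdmRepU q j
      = (q : ℤ) • ((((mltmoGel N q h ((j : ℕ) : ℤ) : Gamma0 (N * q)) : SL(2, ℤ)) :
          Matrix (Fin 2) (Fin 2) ℤ) * W₁m) := by
  rw [mltmo_W2_mul_repU, mltmoGel_coe, mltmoG_mul_W1 N q (t2w_bezout N q hq.out h)]

/-- the representative `c_0` is the identity -/
theorem mltmo_repC_zero :
    (((mlteRepC (N * q) q ⟨0, hq.out.pos⟩ : Gamma0 (N * q)) : SL(2, ℤ)) :
      Matrix (Fin 2) (Fin 2) ℤ) = 1 := by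
  rw [mlteRepC_coe]
  ext a b
  fin_cases a <;> fin_cases b <;> simp

include h in
/-- `G_j ∈ Γ₀(N q²) · c_k` -/
theorem mltmo_exists_g (j : Fin q) : ∃ k : Fin q, ∃ g : Gamma0 (N * q * q),
    W₂m * tdmRepU q j
      = (q : ℤ) • (((g : SL(2, ℤ)) : Matrix (Fin 2) (Fin 2) ℤ)
          * (((mlteRepC (N * q) q k : Gamma0 (N * q)) : SL(2, ℤ)) : Matrix (Fin 2) (Fin 2) ℤ)
          * W₁m) := by
  haveI : NeZero q := ⟨hq.out.ne_zero⟩
  obtain ⟨k, g, hg⟩ := mlteRepC_exists (M := N * q) (s := q) (mltmo_q_dvd N q)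
    (mltmoGel N q h ((j : ℕ) : ℤ)) ⟨0, hq.out.pos⟩
  rw [mltmo_repC_zero, Matrix.one_mul] at hg
  refine ⟨k, g, ?_⟩
  rw [mltmo_W2_repU_eq N q h, hg]

include h in
/-- `W₂ · [[1, j], [0, q]] = q · g_j · c_{π j} · W₁` with a permutation `π` -/
theorem mltmo_exists_pi : ∃ (π : Fin q ≃ Fin q) (g : Fin q → Gamma0 (N * q * q)), ∀ j : Fin q,
    W₂m * tdmRepU q j
      = (q : ℤ) • (((g j : SL(2, ℤ)) : Matrix (Fin 2) (Fin 2) ℤ)
          * (((mlteRepC (N * q) q (π j) : Gamma0 (N * q)) : SL(2, ℤ)) : Matrix (Fin 2) (Fin 2) ℤ)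
          * W₁m) := by
  choose π₀ g hg using mltmo_exists_g N q h
  have hWdet : (W₂m).det ≠ 0 := (t4gSysW N q h).det_ne_zero ()
  have hinj : Function.Injective π₀ := by
    intro i j hij
    obtain ⟨g₀, hg₀⟩ := t4g_W_surj N q h (g i * (g j)⁻¹)
    have h1 : W₂m * tdmRepU q i
        = W₂m * (((g₀ : SL(2, ℤ)) : Matrix (Fin 2) (Fin 2) ℤ) * tdmRepU q j) := by
      rw [← Matrix.mul_assoc, ← hg₀, Matrix.mul_assoc, hg j, hg i, hij, Subgroup.coe_mul,
        Matrix.SpecialLinearGroup.coe_mul, Matrix.mul_smul]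
      congr 1
      simp only [← Matrix.mul_assoc]
      congr 2
      rw [Matrix.mul_assoc, ← Matrix.SpecialLinearGroup.coe_mul, ← Subgroup.coe_mul,
        inv_mul_cancel, Subgroup.coe_one, Matrix.SpecialLinearGroup.coe_one, Matrix.mul_one]
    have h2 := tdm_mul_left_cancel hWdet h1
    exact (tdm_aff_inequiv j i (g₀ : SL(2, ℤ)) h2.symm).symm
  exact ⟨Equiv.ofBijective π₀ (Finite.injective_iff_bijective.mp hinj), g, fun j => hg j⟩

end Reps

section Main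

variable (N q : ℕ) [NeZero N] [hq : Fact q.Prime] (h : ¬ q ∣ N) {A : Type*} [AddCommGroup A]

local notation "W₁m" => t2wMat N q (t2wA N q) (t2wC N q)
local notation "W₂m" => t2wMat N (q * q) (t2wA N (q * q)) (t2wC N (q * q))

/-- **`cor_U ∘ W_{q²} = w_q ∘ c₂`** on `Hom(Γ₀(N q²), A)` -/
theorem mltmo_corU_W2 (φ : Additive (Gamma0 (N * q * q)) →+ A) :
    (t4gSysCU (N * q) q (mltmo_q_dvd N q)).cor A ((t4gSysW N q h).hom A φ)
      = (t2fSysW N q h).hom A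
          ((@mlteSysC (N * q) q _ ⟨hq.out.ne_zero⟩ (mltmo_q_dvd N q)).cor A φ) := by
  haveI : NeZero q := ⟨hq.out.ne_zero⟩
  set CU := t4gSysCU (N * q) q (mltmo_q_dvd N q) with hCU
  set C := mlteSysC (N * q) q (mltmo_q_dvd N q) with hC
  set V₂ := t4gSysW N q h with hV₂
  set V₁ := t2fSysW N q h with hV₁
  obtain ⟨π, g, hg⟩ := mltmo_exists_pi N q h
  have hW₁det : (W₁m).det ≠ 0 := V₁.det_ne_zero ()
  have hq0 : (q : ℤ) ≠ 0 := by exact_mod_cast hq.out.ne_zero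
  refine AddMonoidHom.ext fun δ' => ?_
  obtain ⟨δ, rfl⟩ := Additive.ofMul.surjective δ'
  have hVap : ∀ (ψ : Additive (Gamma0 (N * q * q)) →+ A) (x : Gamma0 (N * q * q)),
      V₂.hom A ψ (Additive.ofMul x) = ψ (Additive.ofMul (V₂.eps x ())) := by
    intro ψ x
    rw [tdmCosetSys.hom_apply, Finset.univ_unique, Finset.sum_singleton]
  have hV1ap : ∀ (ψ : Additive (Gamma0 (N * q)) →+ A) (x : Gamma0 (N * q)),
      V₁.hom A ψ (Additive.ofMul x) = ψ (Additive.ofMul (V₁.eps x ())) := by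
    intro ψ x
    rw [tdmCosetSys.hom_apply, Finset.univ_unique, Finset.sum_singleton]
  rw [T2fSys₂.cor_apply, hV1ap, T2fSys₂.cor_apply]
  set δ₁ := V₁.eps δ () with hδ₁
  -- the key identity
  have key : ∀ j, C.eps δ₁ (π j) = (g j)⁻¹ * V₂.eps (CU.eps δ j) () * g (CU.sigma δ j) := by
    intro j
    set ε := CU.eps δ j with hε
    set ε' := V₂.eps ε () with hε'
    set j' := CU.sigma δ j with hj'
    have h1 : tdmRepU q j * ((δ : SL(2, ℤ)) : Matrix (Fin 2) (Fin 2) ℤ)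
        = ((ε : SL(2, ℤ)) : Matrix (Fin 2) (Fin 2) ℤ) * tdmRepU q j' := CU.rep_mul δ j
    have h2 : W₂m * ((ε : SL(2, ℤ)) : Matrix (Fin 2) (Fin 2) ℤ)
        = ((ε' : SL(2, ℤ)) : Matrix (Fin 2) (Fin 2) ℤ) * W₂m := V₂.rep_mul ε ()
    have h3 : W₁m * ((δ : SL(2, ℤ)) : Matrix (Fin 2) (Fin 2) ℤ)
        = ((δ₁ : SL(2, ℤ)) : Matrix (Fin 2) (Fin 2) ℤ) * W₁m := V₁.rep_mul δ ()
    set gj := ((g j : SL(2, ℤ)) : Matrix (Fin 2) (Fin 2) ℤ) with hgj
    set gj' := ((g j' : SL(2, ℤ)) : Matrix (Fin 2) (Fin 2) ℤ) with hgj'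
    set cj := (((mlteRepC (N * q) q (π j) : Gamma0 (N * q)) : SL(2, ℤ)) :
      Matrix (Fin 2) (Fin 2) ℤ) with hcj
    set cj' := (((mlteRepC (N * q) q (π j') : Gamma0 (N * q)) : SL(2, ℤ)) :
      Matrix (Fin 2) (Fin 2) ℤ) with hcj'
    set dm := ((δ : SL(2, ℤ)) : Matrix (Fin 2) (Fin 2) ℤ) with hdm
    set d1 := ((δ₁ : SL(2, ℤ)) : Matrix (Fin 2) (Fin 2) ℤ) with hd1
    set em := ((ε : SL(2, ℤ)) : Matrix (Fin 2) (Fin 2) ℤ) with hem
    set em' := ((ε' : SL(2, ℤ)) : Matrix (Fin 2) (Fin 2) ℤ) with hem'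
    have hg0 : W₂m * tdmRepU q j = (q : ℤ) • (gj * cj * W₁m) := hg j
    have hg0' : W₂m * tdmRepU q j' = (q : ℤ) • (gj' * cj' * W₁m) := hg j'
    have e1 : W₂m * tdmRepU q j * dm = (q : ℤ) • (gj * (cj * d1) * W₁m) := by
      rw [hg0, Matrix.smul_mul]
      congr 1
      rw [Matrix.mul_assoc, h3]
      simp only [Matrix.mul_assoc]
    have e2 : W₂m * tdmRepU q j * dm = (q : ℤ) • (em' * gj' * cj' * W₁m) := by
      rw [Matrix.mul_assoc, h1, ← Matrix.mul_assoc, h2, Matrix.mul_assoc, hg0', Matrix.mul_smul]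
      congr 1
      simp only [Matrix.mul_assoc]
    have e3 : gj * (cj * d1) * W₁m = em' * gj' * cj' * W₁m :=
      smul_right_injective (Matrix (Fin 2) (Fin 2) ℤ) hq0 (e1.symm.trans e2)
    have e4 : gj * (cj * d1) = em' * gj' * cj' := tdm_mul_right_cancel hW₁det e3
    have hgdet : gj.det ≠ 0 := by
      rw [hgj, (g j : SL(2, ℤ)).2]
      exact one_ne_zero
    have e5 : cj * d1
        = ((((g j)⁻¹ * ε' * g j' : Gamma0 (N * q * q)) : SL(2, ℤ)) : Matrix (Fin 2) (Fin 2) ℤ)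
          * cj' := by
      apply tdm_mul_left_cancel hgdet
      rw [e4, ← Matrix.mul_assoc]
      congr 1
      have hgrp : g j * ((g j)⁻¹ * ε' * g j') = ε' * g j' := by group
      have hgrp' := congrArg (fun x : Gamma0 (N * q * q) =>
        ((x : SL(2, ℤ)) : Matrix (Fin 2) (Fin 2) ℤ)) hgrp
      simp only [Subgroup.coe_mul, Matrix.SpecialLinearGroup.coe_mul] at hgrp'
      rw [hgj, hem', hgj']
      simp only [Subgroup.coe_mul, Matrix.SpecialLinearGroup.coe_mul]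
      exact hgrp'.symm
    exact ((C.eq_of_rep_mul e5).2).symm
  have hsum : ∀ j, φ (Additive.ofMul (C.eps δ₁ (π j)))
      = (φ (Additive.ofMul (V₂.eps (CU.eps δ j) ())) + φ (Additive.ofMul (g (CU.sigma δ j))))
        - φ (Additive.ofMul (g j)) := by
    intro j
    rw [key j, ofMul_mul, ofMul_mul, ofMul_inv, map_add, map_add, map_neg]
    abel
  rw [← Equiv.sum_comp π (fun k => φ (Additive.ofMul (C.eps δ₁ k))),
    Finset.sum_congr rfl fun j _ => hsum j, Finset.sum_sub_distrib, Finset.sum_add_distrib,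
    Equiv.sum_comp (CU.sigma δ) (fun j => φ (Additive.ofMul (g j))), add_sub_cancel_right]
  exact Finset.sum_congr rfl fun j _ => hVap φ _

/-- **`U_q ∘ W_{q²} = res ∘ w_q ∘ c₂`** on `Hom(Γ₀(N q²), A)` -/
theorem mltmo_U_W2 (φ : Additive (Gamma0 (N * q * q)) →+ A) :
    (tdmSysU (N * q * q) q (Dvd.intro_left (N * q) rfl) hq.out.ne_zero).hom A
        ((t4gSysW N q h).hom A φ)
      = t2fRes (t2f5_Gamma0_le (N * q) q) A ((t2fSysW N q h).hom A
          ((@mlteSysC (N * q) q _ ⟨hq.out.ne_zero⟩ (mltmo_q_dvd N q)).cor A φ)) := by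
  rw [t4g_U_eq_res_corU (N * q) q (mltmo_q_dvd N q), mltmo_corU_W2 N q h]

end Main

section Par

variable (N q : ℕ) [NeZero N] [hq : Fact q.Prime] (h : ¬ q ∣ N)
  (R : Type*) [Semiring R] (A : Type*) [AddCommGroup A] [Module R A]

/-- `U_q = res ∘ cor_U` on the parabolic classes of level `N q²` -/
theorem mltmo_U2_eq_res_corU (y : ↥(parabolicHoms R (Gamma0 (N * q * q)) A)) :
    (tdmSysU (N * q * q) q (Dvd.intro_left (N * q) rfl) hq.out.ne_zero).homPar R A y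
      = t2fResPar (t2f5_Gamma0_le (N * q) q) R A
          ((t4gSysCU (N * q) q (mltmo_q_dvd N q)).corPar R A y) := by
  apply Subtype.ext
  rw [tdmCosetSys.homPar_coe, t2fResPar_coe, T2fSys₂.corPar_coe]
  exact t4g_U_eq_res_corU (N * q) q (mltmo_q_dvd N q) _

/-- `U_q (W_{q²} y) = res (w_q (c₂ y))` on the parabolic classes of level `N q²` -/
theorem mltmo_U2_W2_par (y : ↥(parabolicHoms R (Gamma0 (N * q * q)) A)) :
    (tdmSysU (N * q * q) q (Dvd.intro_left (N * q) rfl) hq.out.ne_zero).homPar R A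
        ((t4gSysW N q h).homPar R A y)
      = t2fResPar (t2f5_Gamma0_le (N * q) q) R A ((t2fSysW N q h).homPar R A
          ((@mlteSysC (N * q) q _ ⟨hq.out.ne_zero⟩ (mltmo_q_dvd N q)).corPar R A y)) := by
  apply Subtype.ext
  rw [tdmCosetSys.homPar_coe, tdmCosetSys.homPar_coe, t2fResPar_coe, tdmCosetSys.homPar_coe,
    T2fSys₂.corPar_coe]
  exact mltmo_U_W2 N q h _

/-- a class killed by the transfer `c₂` has `U_q (W_{q²} y) = 0` -/
theorem mltmo_U2_W2_eq_zero (y : ↥(parabolicHoms R (Gamma0 (N * q * q)) A))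
    (hy : (@mlteSysC (N * q) q _ ⟨hq.out.ne_zero⟩ (mltmo_q_dvd N q)).corPar R A y = 0) :
    (tdmSysU (N * q * q) q (Dvd.intro_left (N * q) rfl) hq.out.ne_zero).homPar R A
        ((t4gSysW N q h).homPar R A y) = 0 := by
  rw [mltmo_U2_W2_par, hy, map_zero, map_zero]

end Par

end

end Fermat.Agent.MLT
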