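/-
MLT / MO (helper3), part 2: **the Galois representation of an eigensystem of level `N` at a prime
`q ∤ N`**.

`mltmo_exists_rep`: `𝒪` a complete discrete valuation ring of characteristic zero with finite residue
field of characteristic `p`, `x₀ ≠ 0` a class in `H(N) = Hom_par(Γ₀(N), 𝒪)` with `T_ℓ x₀ = a ℓ • x₀`
for the primes `ℓ ∉ S`, `q ∤ N` a prime `≠ p` (possibly in `S`).  Then over a finite extension
`𝒪''` there is a continuous `r : G_ℚ → GL₂(𝒪'')` with `tr r(Frob_ℓ) = a ℓ`, `det r(Frob_ℓ) = ℓ`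
(`ℓ ∉ S`) which is **unramified at `q`**, with `det r(φ) = q` and **`tr r(φ) ≠ ± (1 + q)`** for every
Frobenius lift `φ` at `q`.

Proof: the eigencharacter `χ` of `x₀` (`ihsc_exists_char`) extends to the full Hecke algebra
(`ter_extension`), S30 at level `N` away from `S ∖ {q}` gives the representation with the
Eichler–Shimura relation at `q`, and the value of the extension at `T_q` is a root of the minimal
polynomial of `T_q`, hence `≠ ± (q + 1)` by helper6's `mltc_rp_minpoly_eval_ne`.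
-/
import Mathlib
import Fermat.Agent.Lib.MLT.Crit.RPBetti
import Fermat.Agent.Lib.Ihara.Sc.Level
import Fermat.Agent.Lib.T1.Asm.Res.Extension
import Fermat.Agent.Lib.S53.MatInterface
import Fermat.Agent.Lib.TW.BaseChange
import Fermat.Agent.Lib.TW.Local.Unramified
import Fermat.Agent.Lib.S31.Trace.PowTrace

set_option autoImplicit false
set_option linter.unusedSectionVars false
set_option linter.unusedVariables false
set_option linter.style.haveILetI false

open IsLocalRing Polynomial Fermat.Agent.Ihara Fermat.Agent.S53Lib Fermat.Agent.TW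
  Fermat.Agent.T1 CongruenceSubgroup

namespace Fermat.Agent.MLT

local notation "Qb" => AlgebraicClosure ℚ
local notation "GQ" => (AlgebraicClosure ℚ ≃ₐ[ℚ] AlgebraicClosure ℚ)

/-- trace and determinant of a matrix representation from the characteristic polynomial of an
equivalent representation -/
theorem mltmo_trace_det_of_charpoly {A : Type} [CommRing A] [IsLocalRing A]
    (ρ : GaloisRepAdic A) (r : GQ →* Matrix (Fin 2) (Fin 2) A) (hcts : MatCts A r)
    (he : ρ.IsEquiv (ofMat r hcts)) (σ : GQ) (t d : A)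
    (h : LinearMap.charpoly (ρ.ρ σ) = X ^ 2 - C t * X + C d) :
    (r σ).trace = t ∧ (r σ).det = d := by
  have h1 : LinearMap.charpoly ((ofMat r hcts).ρ σ) = X ^ 2 - C t * X + C d := by
    rw [← tw_charpoly_eq_of_isEquiv he σ, h]
  have h2 := Fermat.Agent.S31T.s31t_trace_det_of_charpoly (ofMatBasis r hcts)
    ((ofMat r hcts).ρ σ) t d h1
  have hmat : LinearMap.toMatrix (ofMatBasis r hcts) (ofMatBasis r hcts) ((ofMat r hcts).ρ σ)
      = r σ := DFunLike.congr_fun (toMatrixRep_ofMat r hcts) σ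
  rw [hmat] at h2
  exact h2

/-- **the Galois representation of an eigensystem of level `N`, at a prime `q ∤ N`** -/
theorem mltmo_exists_rep {p : ℕ} [hp : Fact p.Prime]
    (O : Type) [CommRing O] [IsDomain O] [IsDiscreteValuationRing O]
    [IsAdicComplete (maximalIdeal O) O] [Finite (ResidueField O)] [CharZero O]
    (hpO : (p : O) ∈ maximalIdeal O)
    (N q : ℕ) [NeZero N] [hq : Fact q.Prime] (hqN : ¬ q ∣ N) (hqp : q ≠ p) (S : Finset ℕ)
    (hpS : p ∈ S) (hNS : ∀ ℓ : ℕ, ℓ.Prime → ℓ ∣ N → ℓ ∈ S)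
    (a : ℕ → O) (x₀ : Ih4H O O N) (hx₀ : x₀ ≠ 0)
    (hT : ∀ ℓ : ℕ, ℓ.Prime → ℓ ∉ S → ih4Op O N ℓ x₀ = a ℓ • x₀) :
    ∃ (O'' : Type) (_ : CommRing O'') (_ : IsDomain O'') (_ : IsDiscreteValuationRing O'')
      (_ : IsAdicComplete (maximalIdeal O'') O'') (_ : CharZero O'') (_ : Algebra O O'')
      (_ : IsLocalHom (algebraMap O O'')),
      Function.Injective (algebraMap O O'') ∧
      ∃ (r : GQ →* Matrix (Fin 2) (Fin 2) O'') (_ : MatCts O'' r),
        (∀ ℓ : ℕ, ℓ.Prime → ℓ ∉ S → ∀ P : ValuationSubring Qb, P.LiesOverPrime ℓ →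
          ∀ φ : GQ, P.IsFrobeniusAt φ ℓ →
            (r φ).trace = algebraMap O O'' (a ℓ) ∧ (r φ).det = (ℓ : O'')) ∧
        (∀ P : ValuationSubring Qb, P.LiesOverPrime q → ∀ φ : GQ, P.IsFrobeniusAt φ q →
          (r φ).det = (q : O'') ∧ (r φ).trace ≠ 1 + (q : O'') ∧
            (r φ).trace ≠ -(1 + (q : O''))) ∧
        (∀ P : ValuationSubring Qb, P.LiesOverPrime q → ∀ τ ∈ P.inertiaSubgroupIn ℚ, r τ = 1) := by
  classical
  -- the eigencharacter and its extension to the full Hecke algebra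
  obtain ⟨χ, hχ⟩ := ihsc_exists_char O N (↑S : Set ℕ)
    (fun ℓ hℓ hℓN => by exact_mod_cast hNS ℓ hℓ hℓN) x₀ hx₀ a
    (fun ℓ hℓ hℓS => hT ℓ hℓ (by exact_mod_cast hℓS))
  obtain ⟨O₁, i1, i2, i3, i4, i5, i6, i7, i8, i9, hinj₁, lam, hlam⟩ :=
    ter_extension p N (↑S : Set ℕ) O hpO χ
  have hpO₁ : (p : O₁) ∈ maximalIdeal O₁ := by
    have := map_nonunit (algebraMap O O₁) _ hpO
    rwa [map_natCast] at this
  -- S30 away from `S ∖ {q}`
  set S' : Finset ℕ := S.erase q with hS'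
  have hpS' : p ∈ S' := Finset.mem_erase.mpr ⟨fun h => hqp h.symm, hpS⟩
  have hNS' : ∀ ℓ : ℕ, ℓ.Prime → ℓ ∣ N → ℓ ∈ S' := fun ℓ hℓ hℓN =>
    Finset.mem_erase.mpr ⟨fun h => hqN (h ▸ hℓN), hNS ℓ hℓ hℓN⟩
  have hqS' : q ∉ (↑S' : Set ℕ) := by
    intro h
    have : q ∈ S' := by exact_mod_cast h
    exact (Finset.notMem_erase q S) this
  set χ' : CuspForm.heckeAlgebra N 2 (↑S' : Set ℕ) →+* O₁ :=
    lam.comp (Subalgebra.inclusion (CuspForm.heckeAlgebra_mono (N := N) (k := 2)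
      (Set.empty_subset (↑S' : Set ℕ)))).toRingHom with hχ'
  obtain ⟨O₂, j1, j2, j3, j4, j5, j6, j7, j8, j9, hinj₂, ρ, hρ, hunr⟩ :=
    Fermat.Agent.S30.result p N S' hpS' hNS' O₁ hpO₁ χ'
  obtain ⟨r, hcts, hequiv⟩ := exists_isEquiv_ofMat ρ
  letI : Algebra O O₂ := ((algebraMap O₁ O₂).comp (algebraMap O O₁)).toAlgebra
  have halg : ∀ c : O, algebraMap O O₂ c = algebraMap O₁ O₂ (algebraMap O O₁ c) := fun c => rfl
  haveI hloc : IsLocalHom (algebraMap O O₂) := by
    show IsLocalHom ((algebraMap O₁ O₂).comp (algebraMap O O₁))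
    exact RingHom.isLocalHom_comp _ _
  refine ⟨O₂, j1, j2, j3, j4, j6, inferInstance, hloc, hinj₂.comp hinj₁, r, hcts, ?_, ?_, ?_⟩
  · -- the Frobenius elements outside `S`
    intro ℓ hℓ hℓS P hP φ hφ
    have hℓN : ¬ ℓ ∣ N := fun hd => hℓS (hNS ℓ hℓ hd)
    have hℓS' : ℓ ∉ (↑S' : Set ℕ) := by
      intro h
      have : ℓ ∈ S' := by exact_mod_cast h
      exact hℓS (Finset.mem_of_mem_erase this)
    have hℓSc : ℓ ∉ (↑S : Set ℕ) := by exact_mod_cast hℓS
    have h1 := hρ ℓ hℓ hℓN hℓS' P hP φ hφ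
    have h2 : χ' (CuspForm.heckeAlgebra.T hℓ hℓN hℓS') = algebraMap O O₁ (a ℓ) := by
      rw [← hχ ℓ hℓ hℓN hℓSc, ← hlam]
      rfl
    rw [h2, ← halg] at h1
    exact mltmo_trace_det_of_charpoly ρ r hcts hequiv φ _ _ h1
  · -- the Frobenius elements at `q`
    intro P hP φ hφ
    have h1 := hρ q hq.out hqN hqS' P hP φ hφ
    obtain ⟨htr, hdet⟩ := mltmo_trace_det_of_charpoly ρ r hcts hequiv φ _ _ h1
    set t : CuspForm.heckeAlgebra N 2 (∅ : Set ℕ) :=
      CuspForm.heckeAlgebra.T hq.out hqN (Set.notMem_empty q) with ht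
    have ht' : χ' (CuspForm.heckeAlgebra.T hq.out hqN hqS') = lam t := rfl
    rw [ht'] at htr
    have key : ∀ c : ℤ, (q : ℤ) + 1 ≤ |c| → algebraMap O₁ O₂ (lam t) ≠ ((c : ℤ) : O₂) := by
      intro c hc hcon
      haveI := Fermat.Agent.S22Lib.moduleFinite_heckeAlgebra N 2 (∅ : Set ℕ)
      have hPt : aeval t (minpoly ℤ t) = 0 := minpoly.aeval ℤ t
      set Λ : CuspForm.heckeAlgebra N 2 (∅ : Set ℕ) →+* O₂ := (algebraMap O₁ O₂).comp lam with hΛ
      have h3 : (minpoly ℤ t).eval₂ (Int.castRingHom O₂) (Λ t) = 0 := by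
        have h4 := congrArg Λ hPt
        rw [map_zero, aeval_def, Polynomial.hom_eval₂] at h4
        have h5 : Λ.comp (algebraMap ℤ (CuspForm.heckeAlgebra N 2 (∅ : Set ℕ)))
            = Int.castRingHom O₂ := RingHom.ext_int _ _
        rw [h5] at h4
        exact h4
      have h6 : Λ t = Int.castRingHom O₂ c := by
        rw [eq_intCast]
        exact hcon
      rw [h6, Polynomial.eval₂_at_apply, eq_intCast] at h3
      have h7 : (minpoly ℤ t).eval c = 0 := by exact_mod_cast h3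
      exact mltc_rp_minpoly_eval_ne N hq.out hqN c hc h7
    refine ⟨hdet, ?_, ?_⟩
    · intro hcon
      rw [htr] at hcon
      refine key ((q : ℤ) + 1) (le_abs_self _) ?_
      rw [hcon]
      push_cast
      ring
    · intro hcon
      rw [htr] at hcon
      refine key (-((q : ℤ) + 1)) (by rw [abs_neg]; exact le_abs_self _) ?_
      rw [hcon]
      push_cast
      ring
  · -- inertia at `q`
    intro P hP τ hτ
    have h1 : (ofMat r hcts).IsUnramifiedAt q :=
      isUnramifiedAt_of_isEquiv hequiv (hunr q hq.out hqN hqp)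
    have h2 := h1 P hP τ hτ
    have hmat : LinearMap.toMatrix (ofMatBasis r hcts) (ofMatBasis r hcts) ((ofMat r hcts).ρ τ)
        = r τ := DFunLike.congr_fun (toMatrixRep_ofMat r hcts) τ
    rw [h2, LinearMap.toMatrix_one] at hmat
    exact hmat.symm

end Fermat.Agent.MLT
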