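/-
MLT / MO (helper3), part 5: **the adjoints of the four degeneracy maps for the twisted pairing**,
on the lattices.

Levels `N` (`q ∤ N`), `N q`, `N q q`; `mltePairZ M x y = lrdBN M x (w_M y)` (helper1).

* `mltmo_cor_W` : `c₁ ∘ W_q = w_N ∘ c₁ ∘ w_{N q}` (`W_q` the Atkin–Lehner involution at `q`);
* `mltmo_pairZ_r1` : `[r₁ x, c]_{N q} = [x, c₁ W_q c]_N`;
* `mltmo_pairZ_d1` : `[d₁ x, c]_{N q} = [x, c₁ c]_N`;
* `mltmo_pairZ_r2` : `[r₂ c, y]_{N q q} = [c, w₁ c₂ w₂ y]_{N q}`;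
* `mltmo_pairZ_d2` : `[d₂ c, y]_{N q q} = [c, c₂ y]_{N q}`.
-/
import Mathlib
import Fermat.Agent.Lib.MLT.Eta.Gram

set_option autoImplicit false
set_option linter.unusedSectionVars false
set_option linter.unusedVariables false
set_option linter.style.haveILetI false

open Matrix MatrixGroups CongruenceSubgroup Fermat.Agent.T1 Fermat.Agent.T2 ModularCurve
  ModularCurve.Period Fermat.Agent.LR Fermat.Agent.Ihara

namespace Fermat.Agent.MLT

noncomputable section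

section Levels

variable (N q : ℕ) [NeZero N] [hq : Fact q.Prime] (h : ¬ q ∣ N)

/-- the second degeneracy map is `W_q ∘ res` on the lattice -/
theorem mltmo_deg_eq_W_res (x : ↥(tdmL N)) :
    mlteDeg N q hq.out.ne_zero x = lrhW N q h (lrhRes N q x) :=
  Subtype.ext (mlteDegHom_eq_W_res N q h x.1)

/-- `W_q` is self-adjoint for the Poincaré pairing -/
theorem mltmo_lrdBN_W_adj (x y : ↥(tdmL (N * q))) :
    lrdBN (N * q) (lrhW N q h x) y = lrdBN (N * q) x (lrhW N q h y) := by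
  have := lrdBN_w N q h x (lrhW N q h y)
  rw [lrh_W_W] at this
  exact this

/-- **`c₁ ∘ W_q = w_N ∘ c₁ ∘ w_{N q}`** -/
theorem mltmo_cor_W (y : ↥(tdmL (N * q))) :
    lrhCor N q h (lrhW N q h y) = mlteW N (lrhCor N q h (mlteW (N * q) y)) := by
  rw [← sub_eq_zero]
  apply mlte_lrdBN_nondeg'
  intro x
  rw [map_sub, ← lrdBN_res_cor N q h, ← mltmo_lrdBN_W_adj, ← mltmo_deg_eq_W_res,
    mlte_adj_d1 N q h, sub_self]

theorem mltmo_pairZ_r1 (x : ↥(tdmL N)) (c : ↥(tdmL (N * q))) :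
    mltePairZ (N * q) (lrhRes N q x) c = mltePairZ N x (lrhCor N q h (lrhW N q h c)) := by
  rw [mltePairZ_apply, mltePairZ_apply, mltmo_cor_W, mlteWPar_invol, mlte_adj_r1 N q h]

theorem mltmo_pairZ_d1 (x : ↥(tdmL N)) (c : ↥(tdmL (N * q))) :
    mltePairZ (N * q) (mlteDeg N q hq.out.ne_zero x) c = mltePairZ N x (lrhCor N q h c) := by
  rw [mltePairZ_apply, mltePairZ_apply, mlte_adj_d1 N q h, mlteWPar_invol]

theorem mltmo_pairZ_r2 (c : ↥(tdmL (N * q))) (y : ↥(tdmL (N * q * q))) :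
    mltePairZ (N * q * q) (lrhRes (N * q) q c) y
      = mltePairZ (N * q) c (mlteW (N * q) (mlteC2 N q (mlteW (N * q * q) y))) := by
  rw [mltePairZ_apply, mltePairZ_apply, mlteWPar_invol, mlte_adj_r2 N q]

theorem mltmo_pairZ_d2 (c : ↥(tdmL (N * q))) (y : ↥(tdmL (N * q * q))) :
    mltePairZ (N * q * q) (mlteDeg (N * q) q hq.out.ne_zero c) y
      = mltePairZ (N * q) c (mlteC2 N q y) := by
  rw [mltePairZ_apply, mltePairZ_apply, mlte_adj_d2 N q, mlteWPar_invol]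

end Levels

end

end Fermat.Agent.MLT
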