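/-
MLT / MO (helper3), part 6: **the adjoints of the degeneracy maps with coefficients in `O`** and the
instances of `MltmoDeg`, `MltmoAdj` for the levels `N`, `N q`, `N q q`.

* `mltmo_bc_adj`, `mltmo_pairO_adj2` : base change of an adjunction between two levels;
* `mltmoC2 O N q`                    : the transfer `H(N q q) → H(N q)`;
* `mltmo_pairO_r1/_d1/_r2/_d2`       : the four adjunctions for `mltePairO`;
* `mltmo_op_deg`                     : `Deg` commutes with the Hecke operators away from `q`;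
* `mltmo_adj_comm`                   : the adjoint of an equivariant map is equivariant;
* `mltmo_deg_inst`, `mltmo_adj_inst` : the instances.
-/
import Mathlib
import Fermat.Agent.Lib.MLT.MO.Lat
import Fermat.Agent.Lib.MLT.MO.Abs
import Fermat.Agent.Lib.MLT.Eta.PairO
import Fermat.Agent.Lib.Ihara.Fr.Red

set_option autoImplicit false
set_option linter.unusedSectionVars false
set_option linter.unusedVariables false
set_option linter.style.haveILetI false

open Matrix MatrixGroups CongruenceSubgroup Fermat.Agent.T1 Fermat.Agent.T2 ModularCurve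
  ModularCurve.Period Fermat.Agent.LR Fermat.Agent.Ihara TensorProduct

namespace Fermat.Agent.MLT

noncomputable section

/-! ### Generic base change of an adjunction -/

section BC

variable (O : Type*) [CommRing O] {L L' : Type*} [AddCommGroup L] [AddCommGroup L']

/-- an adjunction `B'(f x, y) = B(x, g y)` survives base change -/
theorem mltmo_bc_adj (B : LinearMap.BilinForm ℤ L) (B' : LinearMap.BilinForm ℤ L')
    (f : L →ₗ[ℤ] L') (g : L' →ₗ[ℤ] L) (h : ∀ x y, B' (f x) y = B x (g y))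
    (s : O ⊗[ℤ] L) (t : O ⊗[ℤ] L') :
    B'.baseChange O (f.baseChange O s) t = B.baseChange O s (g.baseChange O t) := by
  induction s using TensorProduct.induction_on with
  | zero => simp
  | add s₁ s₂ h₁ h₂ =>
    rw [map_add, map_add, LinearMap.add_apply, h₁, h₂, map_add, LinearMap.add_apply]
  | tmul a x =>
    induction t using TensorProduct.induction_on with
    | zero => simp
    | add t₁ t₂ h₁ h₂ => rw [map_add, map_add, map_add, h₁, h₂]
    | tmul b y =>
      rw [LinearMap.baseChange_tmul, LinearMap.baseChange_tmul,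
        LinearMap.BilinForm.baseChange_tmul, LinearMap.BilinForm.baseChange_tmul, h]

end BC

section Adj2

variable (O : Type*) [CommRing O] [IsDomain O] [CharZero O] (M M' : ℕ) [NeZero M] [NeZero M']

/-- transport of an adjunction between two levels from the lattices to `O`-coefficients -/
theorem mltmo_pairO_adj2 (s : ↥(tdmL M) →ₗ[ℤ] ↥(tdmL M')) (s' : ↥(tdmL M') →ₗ[ℤ] ↥(tdmL M))
    (sO : Ih4H O O M →ₗ[O] Ih4H O O M') (sO' : Ih4H O O M' →ₗ[O] Ih4H O O M)
    (h : ∀ φ : ↥(tdmL M), sO (tdmCastL M O φ) = tdmCastL M' O (s φ))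
    (h' : ∀ φ : ↥(tdmL M'), sO' (tdmCastL M' O φ) = tdmCastL M O (s' φ))
    (hadj : ∀ x y, mltePairZ M' (s x) y = mltePairZ M x (s' y))
    (x : Ih4H O O M) (y : Ih4H O O M') :
    mltePairO O M' (sO x) y = mltePairO O M x (sO' y) := by
  obtain ⟨a, rfl⟩ := (tdmBC M O).surjective x
  obtain ⟨b, rfl⟩ := (tdmBC M' O).surjective y
  rw [← mlte_tdmBC_baseChange O M M' s sO h, ← mlte_tdmBC_baseChange O M' M s' sO' h',
    mltePairO_bc, mltePairO_bc]
  exact mltmo_bc_adj O (mltePairZ M) (mltePairZ M') s s' hadj a b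

end Adj2

/-! ### The lattice maps and their `O`-forms -/

section Cast

variable (O : Type*) [CommRing O] [IsDomain O] [CharZero O]

theorem mltmo_res_castL (M r : ℕ) [NeZero M] [Fact r.Prime] (φ : ↥(tdmL M)) :
    ih4Res M r O O (tdmCastL M O φ) = tdmCastL (M * r) O (lrhRes M r φ) := rfl

theorem mltmo_deg_castL (M r : ℕ) [NeZero M] [NeZero (M * r)] (hr : r ≠ 0) (φ : ↥(tdmL M)) :
    mlteDegPar M r hr O O (tdmCastL M O φ) = tdmCastL (M * r) O (mlteDeg M r hr φ) := rfl

theorem mltmo_W_castL (M : ℕ) [NeZero M] (φ : ↥(tdmL M)) :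
    mlteWPar M O O (tdmCastL M O φ) = tdmCastL M O (mlteW M φ) := rfl

theorem mltmo_corPar_castL {M M' : ℕ} [NeZero M] [NeZero M'] {ι : Type} [Fintype ι]
    (C : T2fSys₂ (Gamma0 M) (Gamma0 M') ι) (φ : ↥(tdmL M)) :
    C.corPar O O (tdmCastL M O φ) = tdmCastL M' O (C.corPar ℤ ℤ φ) := by
  apply Subtype.ext
  exact ihf_cor_comp C (Int.castAddHom O) φ.1

end Cast

section Levels

variable (O : Type*) [CommRing O] [IsDomain O] [CharZero O]
  (N q : ℕ) [NeZero N] [hq : Fact q.Prime] (h : ¬ q ∣ N)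

/-- the transfer `H(N q q) → H(N q)` -/
def mltmoC2 : Ih4H O O (N * q * q) →ₗ[O] Ih4H O O (N * q) :=
  (mlteSysC (N * q) q (mlte_dvd_mul N q)).corPar O O

theorem mltmoC2_castL (φ : ↥(tdmL (N * q * q))) :
    mltmoC2 O N q (tdmCastL (N * q * q) O φ) = tdmCastL (N * q) O (mlteC2 N q φ) :=
  mltmo_corPar_castL O (mlteSysC (N * q) q (mlte_dvd_mul N q)) φ

/-- `[r₁ x, c]_{N q} = [x, c₁ W_q c]_N` -/
theorem mltmo_pairO_r1 (x : Ih4H O O N) (c : Ih4H O O (N * q)) :
    mltePairO O (N * q) (ih4Res N q O O x) c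
      = mltePairO O N x (ih4Cor N q h O O (ih4W N q h O O c)) := by
  refine mltmo_pairO_adj2 O N (N * q) (lrhRes N q) ((lrhCor N q h).comp (lrhW N q h))
    (ih4Res N q O O) ((ih4Cor N q h O O).comp (ih4W N q h O O)) (mltmo_res_castL O N q)
    (fun φ => ?_) (mltmo_pairZ_r1 N q h) x c
  rw [LinearMap.comp_apply, LinearMap.comp_apply, mlte_homPar_castL, mltmo_corPar_castL]

/-- `[d₁ x, c]_{N q} = [x, c₁ c]_N` -/
theorem mltmo_pairO_d1 (x : Ih4H O O N) (c : Ih4H O O (N * q)) :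
    mltePairO O (N * q) (mlteDegPar N q hq.out.ne_zero O O x) c
      = mltePairO O N x (ih4Cor N q h O O c) :=
  mltmo_pairO_adj2 O N (N * q) (mlteDeg N q hq.out.ne_zero) (lrhCor N q h)
    (mlteDegPar N q hq.out.ne_zero O O) (ih4Cor N q h O O) (mltmo_deg_castL O N q _)
    (mltmo_corPar_castL O _) (mltmo_pairZ_d1 N q h) x c

/-- `[r₂ c, y]_{N q q} = [c, w₁ c₂ w₂ y]_{N q}` -/
theorem mltmo_pairO_r2 (c : Ih4H O O (N * q)) (y : Ih4H O O (N * q * q)) :
    mltePairO O (N * q * q) (ih4Res (N * q) q O O c) y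
      = mltePairO O (N * q) c
          (mlteWPar (N * q) O O (mltmoC2 O N q (mlteWPar (N * q * q) O O y))) := by
  refine mltmo_pairO_adj2 O (N * q) (N * q * q) (lrhRes (N * q) q)
    ((mlteW (N * q)).comp ((mlteC2 N q).comp (mlteW (N * q * q))))
    (ih4Res (N * q) q O O)
    ((mlteWPar (N * q) O O).comp ((mltmoC2 O N q).comp (mlteWPar (N * q * q) O O)))
    (mltmo_res_castL O (N * q) q) (fun φ => ?_) (mltmo_pairZ_r2 N q) c y
  rw [LinearMap.comp_apply, LinearMap.comp_apply, LinearMap.comp_apply, LinearMap.comp_apply,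
    mltmo_W_castL, mltmoC2_castL, mltmo_W_castL]

/-- `[d₂ c, y]_{N q q} = [c, c₂ y]_{N q}` -/
theorem mltmo_pairO_d2 (c : Ih4H O O (N * q)) (y : Ih4H O O (N * q * q)) :
    mltePairO O (N * q * q) (mlteDegPar (N * q) q hq.out.ne_zero O O c) y
      = mltePairO O (N * q) c (mltmoC2 O N q y) :=
  mltmo_pairO_adj2 O (N * q) (N * q * q) (mlteDeg (N * q) q hq.out.ne_zero) (mlteC2 N q)
    (mlteDegPar (N * q) q hq.out.ne_zero O O) (mltmoC2 O N q) (mltmo_deg_castL O (N * q) q _)
    (mltmoC2_castL O N q) (mltmo_pairZ_d2 N q) c y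

end Levels

/-! ### Equivariance -/

section Equiv

variable (O : Type*) [CommRing O] [IsDomain O] [CharZero O]

/-- **`Deg` commutes with the Hecke operators away from `q`**, for every level `M` -/
theorem mltmo_op_deg (M q : ℕ) [NeZero M] [hq : Fact q.Prime] [NeZero (M * q)] {ℓ : ℕ}
    (hℓq : ℓ ≠ q) (x : Ih4H O O M) :
    mlteDegPar M q hq.out.ne_zero O O (ih4Op O M ℓ x)
      = ih4Op O (M * q) ℓ (mlteDegPar M q hq.out.ne_zero O O x) := by
  by_cases hℓ : ℓ.Prime
  swap
  · rw [ih4Op_of_not_prime O M hℓ, ih4Op_of_not_prime O (M * q) hℓ]; simp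
  by_cases h1 : ℓ ∣ M
  · haveI : NeZero ℓ := ⟨hℓ.ne_zero⟩
    have hc : Nat.Coprime q ℓ := by
      rw [Nat.coprime_comm, Nat.Prime.coprime_iff_not_dvd hℓ]
      intro hd
      exact hℓq ((Nat.prime_dvd_prime_iff_eq hℓ hq.out).1 hd)
    rw [ih4Op_of_dvd O M hℓ h1, ih4Op_of_dvd O (M * q) hℓ (Dvd.dvd.mul_right h1 q)]
    apply Subtype.ext
    rw [mlteDegPar_coe, tdmCosetSys.homPar_coe, tdmCosetSys.homPar_coe, mlteDegPar_coe]
    exact mlteDegHom_U M q ℓ h1 hc x.1
  · have h2 : ¬ ℓ ∣ M * q := fun hd => (hℓ.dvd_mul.1 hd).elim h1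
      (fun hd' => hℓq ((Nat.prime_dvd_prime_iff_eq hℓ hq.out).1 hd'))
    rw [ih4Op_of_not_dvd O M hℓ h1, ih4Op_of_not_dvd O (M * q) hℓ h2]
    apply Subtype.ext
    rw [mlteDegPar_coe, tdmCosetSys.homPar_coe, tdmCosetSys.homPar_coe, mlteDegPar_coe]
    exact mlteDegHom_T' M q ℓ hℓ h1 h2 x.1

/-- **the adjoint of an equivariant map is equivariant** -/
theorem mltmo_adj_comm (M M' : ℕ) [NeZero M] [NeZero M']
    (f : Ih4H O O M →ₗ[O] Ih4H O O M') (f' : Ih4H O O M' →ₗ[O] Ih4H O O M)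
    (hadj : ∀ x y, mltePairO O M' (f x) y = mltePairO O M x (f' y)) (ℓ : ℕ)
    (hf : ∀ x, f (ih4Op O M ℓ x) = ih4Op O M' ℓ (f x)) (y : Ih4H O O M') :
    f' (ih4Op O M' ℓ y) = ih4Op O M ℓ (f' y) := by
  rw [← sub_eq_zero]
  apply mltePairO_nondeg
  intro x
  rw [map_sub, ← hadj, ← mltePairO_op, ← hf, hadj, mltePairO_op, sub_self]

end Equiv

/-! ### The instances -/

section Inst

variable (O : Type*) [CommRing O] [IsDomain O] [CharZero O]
  (N q : ℕ) [NeZero N] [hq : Fact q.Prime] (h : ¬ q ∣ N)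

/-- **the degeneracy identities** for the levels `N`, `N q`, `N q q` with coefficients in `O` -/
theorem mltmo_deg_inst :
    MltmoDeg ((q : ℕ) : O) (ih4Res N q O O) (mlteDegPar N q hq.out.ne_zero O O)
      (ih4Res (N * q) q O O) (mlteDegPar (N * q) q hq.out.ne_zero O O)
      (ih4T O O N q hq.out h) (ih4U O O (N * q) q (Dvd.intro_left N rfl) hq.out.ne_zero)
      (ih4U O O (N * q * q) q (Dvd.intro_left (N * q) rfl) hq.out.ne_zero) where
  U2_r2 c := by
    apply Subtype.ext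
    rw [tdmCosetSys.homPar_coe, t2fResPar_coe, t2fResPar_coe, tdmCosetSys.homPar_coe]
    exact mlte_hom_U2_r2 N q c.1
  U2_d2 c := by
    apply Subtype.ext
    rw [tdmCosetSys.homPar_coe, mlteDegPar_coe, Submodule.coe_smul, t2fResPar_coe,
      Nat.cast_smul_eq_nsmul]
    exact mlte_hom_U2_d2 N q c.1
  U1_r1 x := by
    apply Subtype.ext
    rw [tdmCosetSys.homPar_coe, t2fResPar_coe, Submodule.coe_sub, t2fResPar_coe,
      tdmCosetSys.homPar_coe, mlteDegPar_coe]
    exact mlte_hom_U1_r1 N q h x.1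
  U1_d1 x := by
    apply Subtype.ext
    rw [tdmCosetSys.homPar_coe, mlteDegPar_coe, Submodule.coe_smul, t2fResPar_coe,
      Nat.cast_smul_eq_nsmul]
    exact mlte_hom_U1_d1 N q x.1
  d2_r1 x := rfl

/-- **the adjunctions** for the levels `N`, `N q`, `N q q` with coefficients in `O` -/
theorem mltmo_adj_inst :
    MltmoAdj (mltePairO O N) (mltePairO O (N * q)) (mltePairO O (N * q * q))
      (ih4Res N q O O) (mlteDegPar N q hq.out.ne_zero O O)
      (ih4Res (N * q) q O O) (mlteDegPar (N * q) q hq.out.ne_zero O O)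
      ((ih4Cor N q h O O).comp (ih4W N q h O O)) (ih4Cor N q h O O)
      ((mlteWPar (N * q) O O).comp ((mltmoC2 O N q).comp (mlteWPar (N * q * q) O O)))
      (mltmoC2 O N q)
      (ih4T O O N q hq.out h)
      (ih4U O O (N * q * q) q (Dvd.intro_left (N * q) rfl) hq.out.ne_zero) where
  nondeg z hz := mltePairO_nondeg O N z hz
  adj_r1 x c := mltmo_pairO_r1 O N q h x c
  adj_d1 x c := mltmo_pairO_d1 O N q h x c
  adj_r2 c y := mltmo_pairO_r2 O N q c y
  adj_d2 c y := mltmo_pairO_d2 O N q c y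
  adj_T x z := mltePairO_T O N q hq.out h x z
  adj_U2 y y' := mltePairO_U O (N * q * q) q (Dvd.intro_left (N * q) rfl) hq.out.ne_zero y y'

end Inst

end

end Fermat.Agent.MLT
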