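/-
MLT / MO (helper3), part 3: **no `q`-new and no `q²`-new classes in an eigensystem of level `N`**.

`𝒪`, `N`, `q ∤ N`, `q ≠ p`, `S ∋ p, q`, `a`, `x₀ ≠ 0` of level `N` with `T_ℓ x₀ = a ℓ • x₀` (`ℓ ∉ S`)
as in `mltmo_exists_rep`.

* `mltmo_no_new_one` : a class `c ∈ H(N q)` with `T_ℓ c = a ℓ • c` (`ℓ ∉ S`) in the `q`-new part
  `ih4K cor w_q` is zero  [lead's `ihe_trace_frob_class'`: `tr r(Frob_q) = ± (1 + q)`, against
  `mltmo_exists_rep`];
* `mltmo_no_new_two` : a class `y ∈ H(N q²)` with `T_ℓ y = a ℓ • y` (`ℓ ∉ S`), `U_q y = 0`,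
  `U_q W_{q²} y = 0` is zero  [helper4's `ihn_not_unipotent`: `r` ramified at `q`].
-/
import Mathlib
import Fermat.Agent.Lib.MLT.MO.Gal
import Fermat.Agent.Lib.Ihara.E.H8Class
import Fermat.Agent.Lib.Ihara.Nf.Main
import Fermat.Agent.Lib.Ihara.Nf.Base
import Fermat.Agent.Lib.Helper6.FrobeniusExists

set_option autoImplicit false
set_option linter.unusedSectionVars false
set_option linter.unusedVariables false
set_option linter.style.haveILetI false

open IsLocalRing Polynomial Fermat.Agent.Ihara Fermat.Agent.S53Lib Fermat.Agent.TW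
  Fermat.Agent.T1 Fermat.Agent.T2 Fermat.Agent.T4 CongruenceSubgroup ModularCurve.Period

namespace Fermat.Agent.MLT

local notation "Qb" => AlgebraicClosure ℚ
local notation "GQ" => (AlgebraicClosure ℚ ≃ₐ[ℚ] AlgebraicClosure ℚ)

section Cast

variable (M : ℕ) [NeZero M] (R₁ R₂ : Type*) [CommRing R₁] [CommRing R₂] [Algebra R₁ R₂]

/-- the cast of coefficients commutes with the operators of coset systems -/
theorem mltmo_cast_homPar {ι : Type} [Fintype ι] (S : tdmCosetSys (Gamma0 M) ι)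
    (c : ↥(parabolicHoms R₁ (Gamma0 M) R₁)) :
    S.homPar R₂ R₂ (ihnCastP M R₁ R₂ c) = ihnCastP M R₁ R₂ (S.homPar R₁ R₁ c) := by
  apply Subtype.ext
  rw [tdmCosetSys.homPar_coe, ihnCastP_coe, ihnCastP_coe, tdmCosetSys.homPar_coe]
  exact S.hom_comp ((algebraMap R₁ R₂ : R₁ →+* R₂) : R₁ →+ R₂) c.1

/-- the cast of coefficients is injective -/
theorem mltmo_cast_injective (hinj : Function.Injective (algebraMap R₁ R₂)) :
    Function.Injective (ihnCastP M R₁ R₂) := by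
  intro c c' h
  apply Subtype.ext
  refine AddMonoidHom.ext fun γ => hinj ?_
  have h1 := congrArg (fun z : ↥(parabolicHoms R₂ (Gamma0 M) R₂) =>
    (z : Additive (Gamma0 M) →+ R₂) γ) h
  exact h1

/-- the cast of coefficients is semilinear -/
theorem mltmo_cast_smul (a : R₁) (c : ↥(parabolicHoms R₁ (Gamma0 M) R₁)) :
    ihnCastP M R₁ R₂ (a • c) = algebraMap R₁ R₂ a • ihnCastP M R₁ R₂ c := by
  rw [map_smul, algebraMap_smul]

end Cast

section NoNew

variable {p : ℕ} [hp : Fact p.Prime]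
  (O : Type) [CommRing O] [IsDomain O] [IsDiscreteValuationRing O]
  [IsAdicComplete (maximalIdeal O) O] [Finite (ResidueField O)] [CharZero O]
  (hpO : (p : O) ∈ maximalIdeal O)
  (N q : ℕ) [NeZero N] [hq : Fact q.Prime] (hqN : ¬ q ∣ N) (hqp : q ≠ p) (S : Finset ℕ)
  (hpS : p ∈ S) (hqS : q ∈ S) (hNS : ∀ ℓ : ℕ, ℓ.Prime → ℓ ∣ N → ℓ ∈ S)
  (a : ℕ → O) (x₀ : Ih4H O O N) (hx₀ : x₀ ≠ 0)
  (hT : ∀ ℓ : ℕ, ℓ.Prime → ℓ ∉ S → ih4Op O N ℓ x₀ = a ℓ • x₀)

include hpO hqN hqp hpS hqS hNS hx₀ hT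

/-- **no `q`-new class of level `N q` in an eigensystem of level `N`** -/
theorem mltmo_no_new_one (c : Ih4H O O (N * q))
    (hcT : ∀ ℓ : ℕ, ℓ.Prime → ℓ ∉ S → ih4Op O (N * q) ℓ c = a ℓ • c)
    (hcK : c ∈ ih4K (ih4Cor N q hqN O O) (ih4W N q hqN O O)) : c = 0 := by
  by_contra hc0
  obtain ⟨O'', i1, i2, i3, i4, i5, i6, i7, hinj, r, hcts, hfrob, hfq, -⟩ :=
    mltmo_exists_rep O hpO N q hqN hqp S hpS hNS a x₀ hx₀ hT
  have hpO'' : (p : O'') ∈ maximalIdeal O'' := by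
    have := map_nonunit (algebraMap O O'') _ hpO
    rwa [map_natCast] at this
  have hNS' : ∀ ℓ : ℕ, ℓ.Prime → ℓ ∣ N * q → ℓ ∈ S := by
    intro ℓ hℓ hd
    rcases (Nat.Prime.dvd_mul hℓ).mp hd with h1 | h1
    · exact hNS ℓ hℓ h1
    · rw [(Nat.prime_dvd_prime_iff_eq hℓ hq.out).mp h1]; exact hqS
  obtain ⟨A, φ, hA, hφ⟩ := Fermat.Agent.Lib.Helper6.exists_frobenius q hq.out
  obtain ⟨hdet, hne1, hne2⟩ := hfq A hA φ hφ
  set c'' := ihnCastP (N * q) O O'' c with hc''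
  have hc''0 : c'' ≠ 0 := fun h0 =>
    hc0 (mltmo_cast_injective (N * q) O O'' hinj (by rw [← hc'', h0, map_zero]))
  -- the identities over `O`
  have hD := ih4_deg N q hqN O O
  have e1 : c + ih4U O O (N * q) q (Dvd.intro_left N rfl) hq.out.ne_zero (ih4W N q hqN O O c)
      = 0 := by
    have h1 := hD.α_β c
    rw [(ih4_mem_K.mp hcK).1, map_zero] at h1
    exact h1.symm
  have e2 : ih4W N q hqN O O c + ih4U O O (N * q) q (Dvd.intro_left N rfl) hq.out.ne_zero c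
      = 0 := by
    rw [ih4_U_of_mem_K hD hcK, add_neg_cancel]
  have key := ihe_trace_frob_class' p N q hqN hqp S hpS hNS' hpO''
    (fun ℓ => algebraMap O O'' (a ℓ)) r hcts hfrob c'' hc''0 ?_ A hA φ hφ hdet ?_ ?_
  · rcases key with h | h
    · exact hne1 h
    · exact hne2 h
  · intro ℓ hℓ hℓN hℓS
    rw [hc'', mltmo_cast_homPar, ← mltmo_cast_smul]
    congr 1
    have := hcT ℓ hℓ hℓS
    rwa [ih4Op_of_not_dvd O (N * q) hℓ hℓN] at this
  · rw [hc'', mltmo_cast_homPar, mltmo_cast_homPar, ← map_add]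
    have : c + (tdmSysU (N * q) q (Dvd.intro_left N rfl) hq.out.ne_zero).homPar O O
        ((t2fSysW N q hqN).homPar O O c) = 0 := e1
    rw [this, map_zero]
  · rw [hc'', mltmo_cast_homPar, mltmo_cast_homPar, ← map_add]
    have : (t2fSysW N q hqN).homPar O O c
        + (tdmSysU (N * q) q (Dvd.intro_left N rfl) hq.out.ne_zero).homPar O O c = 0 := e2
    rw [this, map_zero]

/-- **no `q²`-new class of level `N q²` in an eigensystem of level `N`** -/
theorem mltmo_no_new_two [NeZero (N * q * q)] (y : Ih4H O O (N * q * q))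
    (hyT : ∀ ℓ : ℕ, ℓ.Prime → ℓ ∉ S → ih4Op O (N * q * q) ℓ y = a ℓ • y)
    (hyU : (tdmSysU (N * q * q) q (t4g_q_dvd N q) hq.out.ne_zero).homPar O O y = 0)
    (hyUW : (tdmSysU (N * q * q) q (t4g_q_dvd N q) hq.out.ne_zero).homPar O O
      ((t4gSysW N q hqN).homPar O O y) = 0) : y = 0 := by
  by_contra hy0
  obtain ⟨O'', i1, i2, i3, i4, i5, i6, i7, hinj, r, hcts, hfrob, -, hin⟩ :=
    mltmo_exists_rep O hpO N q hqN hqp S hpS hNS a x₀ hx₀ hT
  have hpO'' : (p : O'') ∈ maximalIdeal O'' := by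
    have := map_nonunit (algebraMap O O'') _ hpO
    rwa [map_natCast] at this
  have hNS' : ∀ ℓ : ℕ, ℓ.Prime → ℓ ∣ N * q * q → ℓ ∈ S := by
    intro ℓ hℓ hd
    rcases (Nat.Prime.dvd_mul hℓ).mp hd with h1 | h1
    · rcases (Nat.Prime.dvd_mul hℓ).mp h1 with h2 | h2
      · exact hNS ℓ hℓ h2
      · rw [(Nat.prime_dvd_prime_iff_eq hℓ hq.out).mp h2]; exact hqS
    · rw [(Nat.prime_dvd_prime_iff_eq hℓ hq.out).mp h1]; exact hqS
  obtain ⟨A, φ, hA, -⟩ := Fermat.Agent.Lib.Helper6.exists_frobenius q hq.out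
  set y'' := ihnCastP (N * q * q) O O'' y with hy''
  have hy''0 : y'' ≠ 0 := fun h0 =>
    hy0 (mltmo_cast_injective (N * q * q) O O'' hinj (by rw [← hy'', h0, map_zero]))
  refine ihn_not_unipotent p N q hqN hqp S hpS hNS' hpO'' (fun ℓ => algebraMap O O'' (a ℓ)) r hcts
    hfrob y'' hy''0 ?_ ?_ ?_ A hA ?_
  · intro ℓ hℓ hℓN hℓS
    rw [hy'', mltmo_cast_homPar, ← mltmo_cast_smul]
    congr 1
    have := hyT ℓ hℓ hℓS
    rwa [ih4Op_of_not_dvd O (N * q * q) hℓ hℓN] at this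
  · rw [hy'', mltmo_cast_homPar, hyU, map_zero]
  · rw [hy'', mltmo_cast_homPar, mltmo_cast_homPar, hyUW, map_zero]
  · intro τ hτ
    rw [hin A hA τ hτ]
    simp

end NoNew

end Fermat.Agent.MLT
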