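/-
MLT / MO (helper3), part 5: **the eigenvalue of `T_q` is determined by the eigenvalues away from `q`**.

`x₀ ≠ 0` a class of level `N` with `T_ℓ x₀ = a ℓ • x₀` for all primes `ℓ ∉ S₀` (`S₀ ∋ p` and the primes
of `N`), `q ∉ S₀`, `q ≠ p`.  Then EVERY class `x` of level `N` with `T_ℓ x = a ℓ • x` for the primes
`ℓ ∉ S₀ ∪ {q}` satisfies `T_q x = a q • x`.

Proof (Eichler–Shimura twice): on the `a`-eigenspace `Y` of `𝒪'' ⊗ Ta_p J₀(N)` (away from `S₀ ∪ {q}`)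
a Frobenius `φ` at `q` satisfies both `φ² - T_q φ + q = 0` (`ihnGal_ES`) and the Cayley–Hamilton relation
`φ² - tr r(φ) φ + det r(φ) = 0` of the Galois representation `r` of `x₀` (`ihnYT_CH`), and
`tr r(φ) = a q`, `det r(φ) = q`; hence `(T_q - a q) φ = 0` on `Y`, and `φ` is invertible on `Y`.
-/
import Mathlib
import Fermat.Agent.Lib.MLT.MO.NoNew
import Fermat.Agent.Lib.Ihara.Nf.Link

set_option autoImplicit false
set_option linter.unusedSectionVars false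
set_option linter.unusedVariables false
set_option linter.style.haveILetI false

open scoped TensorProduct
open IsLocalRing Polynomial Fermat.Agent.Ihara Fermat.Agent.S53Lib Fermat.Agent.TW
  Fermat.Agent.T1 Fermat.Agent.T2 Fermat.Agent.T4 CongruenceSubgroup ModularCurve.Period

namespace Fermat.Agent.MLT

local notation "Qb" => AlgebraicClosure ℚ
local notation "GQ" => (AlgebraicClosure ℚ ≃ₐ[ℚ] AlgebraicClosure ℚ)

/-- **the Galois representation of an eigensystem of level `N`** (no auxiliary prime) -/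
theorem mltmo_exists_rep_basic {p : ℕ} [hp : Fact p.Prime]
    (O : Type) [CommRing O] [IsDomain O] [IsDiscreteValuationRing O]
    [IsAdicComplete (maximalIdeal O) O] [Finite (ResidueField O)] [CharZero O]
    (hpO : (p : O) ∈ maximalIdeal O)
    (N : ℕ) [NeZero N] (S : Finset ℕ)
    (hpS : p ∈ S) (hNS : ∀ ℓ : ℕ, ℓ.Prime → ℓ ∣ N → ℓ ∈ S)
    (a : ℕ → O) (x₀ : Ih4H O O N) (hx₀ : x₀ ≠ 0)
    (hT : ∀ ℓ : ℕ, ℓ.Prime → ℓ ∉ S → ih4Op O N ℓ x₀ = a ℓ • x₀) :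
    ∃ (O'' : Type) (_ : CommRing O'') (_ : IsDomain O'') (_ : IsDiscreteValuationRing O'')
      (_ : IsAdicComplete (maximalIdeal O'') O'') (_ : CharZero O'') (_ : Algebra O O'')
      (_ : IsLocalHom (algebraMap O O'')),
      Function.Injective (algebraMap O O'') ∧
      ∃ (r : GQ →* Matrix (Fin 2) (Fin 2) O'') (_ : MatCts O'' r),
        ∀ ℓ : ℕ, ℓ.Prime → ℓ ∉ S → ∀ P : ValuationSubring Qb, P.LiesOverPrime ℓ →
          ∀ φ : GQ, P.IsFrobeniusAt φ ℓ →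
            (r φ).trace = algebraMap O O'' (a ℓ) ∧ (r φ).det = (ℓ : O'') := by
  classical
  obtain ⟨χ, hχ⟩ := ihsc_exists_char O N (↑S : Set ℕ)
    (fun ℓ hℓ hℓN => by exact_mod_cast hNS ℓ hℓ hℓN) x₀ hx₀ a
    (fun ℓ hℓ hℓS => hT ℓ hℓ (by exact_mod_cast hℓS))
  obtain ⟨O₂, j1, j2, j3, j4, j5, j6, j7, j8, j9, hinj₂, ρ, hρ, hunr⟩ :=
    Fermat.Agent.S30.result p N S hpS hNS O hpO χ
  obtain ⟨r, hcts, hequiv⟩ := exists_isEquiv_ofMat ρ
  refine ⟨O₂, j1, j2, j3, j4, j6, j7, j9, hinj₂, r, hcts, ?_⟩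
  intro ℓ hℓ hℓS P hP φ hφ
  have hℓN : ¬ ℓ ∣ N := fun hd => hℓS (hNS ℓ hℓ hd)
  have hℓSc : ℓ ∉ (↑S : Set ℕ) := by exact_mod_cast hℓS
  have h1 := hρ ℓ hℓ hℓN hℓSc P hP φ hφ
  rw [hχ ℓ hℓ hℓN hℓSc] at h1
  exact mltmo_trace_det_of_charpoly ρ r hcts hequiv φ _ _ h1

section Tq

variable {p : ℕ} [hp : Fact p.Prime]
  (O : Type) [CommRing O] [IsDomain O] [IsDiscreteValuationRing O]
  [IsAdicComplete (maximalIdeal O) O] [Finite (ResidueField O)] [CharZero O]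
  (hpO : (p : O) ∈ maximalIdeal O)
  (N q : ℕ) [NeZero N] [hq : Fact q.Prime] (hqN : ¬ q ∣ N) (hqp : q ≠ p) (S₀ : Finset ℕ)
  (hpS : p ∈ S₀) (hqS : q ∉ S₀) (hNS : ∀ ℓ : ℕ, ℓ.Prime → ℓ ∣ N → ℓ ∈ S₀)
  (a : ℕ → O) (x₀ : Ih4H O O N) (hx₀ : x₀ ≠ 0)
  (hT : ∀ ℓ : ℕ, ℓ.Prime → ℓ ∉ S₀ → ih4Op O N ℓ x₀ = a ℓ • x₀)

include hpO hqN hqp hpS hqS hNS hx₀ hT in
/-- **the eigenvalue of `T_q` is determined by the eigenvalues away from `q`** -/
theorem mltmo_Tq_eigen (x : Ih4H O O N)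
    (hx : ∀ ℓ : ℕ, ℓ.Prime → ℓ ∉ S₀ → ℓ ≠ q → ih4Op O N ℓ x = a ℓ • x) :
    ih4Op O N q x = a q • x := by
  classical
  obtain ⟨O'', i1, i2, i3, i4, i5, i6, i7, hinj, r, hcts, hfrob⟩ :=
    mltmo_exists_rep_basic O hpO N S₀ hpS hNS a x₀ hx₀ hT
  have hpO'' : (p : O'') ∈ maximalIdeal O'' := by
    have := map_nonunit (algebraMap O O'') _ hpO
    rwa [map_natCast] at this
  letI : Algebra ℤ_[p] O'' := tePadicAlgebra p O'' hpO''
  set S : Finset ℕ := insert q S₀ with hS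
  have hpS' : p ∈ S := Finset.mem_insert_of_mem hpS
  have hNS' : ∀ ℓ : ℕ, ℓ.Prime → ℓ ∣ N → ℓ ∈ S := fun ℓ hℓ hd =>
    Finset.mem_insert_of_mem (hNS ℓ hℓ hd)
  set lam : ℕ → O'' := fun ℓ => algebraMap O O'' (a ℓ) with hlam
  have hfrob' : ∀ ℓ : ℕ, ℓ.Prime → ℓ ∉ S → ∀ P : ValuationSubring Qb, P.LiesOverPrime ℓ →
      ∀ φ : GQ, P.IsFrobeniusAt φ ℓ → (r φ).trace = lam ℓ ∧ (r φ).det = (ℓ : O'') :=
    fun ℓ hℓ hℓS => hfrob ℓ hℓ (fun h => hℓS (Finset.mem_insert_of_mem h))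
  obtain ⟨A, φ, hA, hφ⟩ := Fermat.Agent.Lib.Helper6.exists_frobenius q hq.out
  obtain ⟨htr, hdet⟩ := hfrob q hq.out hqS A hA φ hφ
  -- the operators on `O'' ⊗ Ta`
  set g := (ihnGal p N φ).baseChange O'' with hg
  set g' := (ihnGal p N φ⁻¹).baseChange O'' with hg'
  set Tq := (tdmHeckeP p N (CuspForm.heckeAlgebra.T hq.out hqN (Set.notMem_empty q))).baseChange O''
    with hTq
  have hgg' : ∀ y, g (g' y) = y := by
    intro y
    have h1 : ihnGal p N φ * ihnGal p N φ⁻¹ = 1 := by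
      rw [← map_mul, mul_inv_cancel, map_one]
    have h2 := congrArg (fun k : Module.End ℤ_[p]
      ↥(parabolicHoms ℤ_[p] (Gamma0 N) ℤ_[p]) => k.baseChange O'' y) h1
    simpa only [Module.End.mul_eq_comp, LinearMap.baseChange_comp, LinearMap.comp_apply,
      Module.End.one_eq_id, LinearMap.baseChange_id, LinearMap.id_apply] using h2
  -- Eichler–Shimura at `q`
  have hES : ∀ y, g (g y) - Tq (g y) + (q : O'') • y = 0 := by
    intro y
    have h1 := congrArg (fun k : Module.End ℤ_[p]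
        ↥(parabolicHoms ℤ_[p] (Gamma0 N) ℤ_[p]) => k.baseChange O'' y)
      (ihnGal_ES p N q hq.out hqN hqp A hA φ hφ)
    simp only [LinearMap.baseChange_add, LinearMap.baseChange_sub, LinearMap.baseChange_smul,
      Module.End.mul_eq_comp, LinearMap.baseChange_comp, Module.End.one_eq_id,
      LinearMap.baseChange_id, LinearMap.add_apply, LinearMap.sub_apply, LinearMap.comp_apply,
      LinearMap.smul_apply, LinearMap.id_apply, LinearMap.baseChange_zero,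
      LinearMap.zero_apply] at h1
    have h2 : (q : ℤ_[p]) • y = (q : O'') • y := by
      rw [Nat.cast_smul_eq_nsmul, Nat.cast_smul_eq_nsmul]
    rw [← h2]
    exact h1
  -- `T_q = a q` on the eigenspace
  have key : ∀ y ∈ ihnYT p N lam S, Tq y = lam q • y := by
    intro y hy
    have hy' : g' y ∈ ihnYT p N lam S := ihnYT_stable p N lam S hy φ⁻¹
    have h1 := ihnYT_CH p N hpO'' lam S hpS' hNS' r hcts hfrob' φ hy'
    rw [htr, hdet, ← hg] at h1
    have h2 := hES (g' y)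
    have h3 : Tq (g (g' y)) = lam q • g (g' y) := by
      have h4 : g (g (g' y)) - Tq (g (g' y)) = g (g (g' y)) - lam q • g (g' y) := by
        have e1 := eq_neg_of_add_eq_zero_left h2
        have e2 := eq_neg_of_add_eq_zero_left h1
        rw [e1, e2]
      exact (sub_right_inj.mp h4)
    rwa [hgg'] at h3
  -- back to `x`
  set c := ihnCastP N O O'' x with hc
  have hcT : ∀ (ℓ : ℕ) (hℓ : ℓ.Prime) (hℓN : ¬ ℓ ∣ N), ℓ ∉ S →
      (tdmSysT N ℓ hℓ hℓN).homPar O'' O'' c = lam ℓ • c := by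
    intro ℓ hℓ hℓN hℓS
    rw [hc, mltmo_cast_homPar, ← mltmo_cast_smul]
    congr 1
    have h1 := hx ℓ hℓ (fun h => hℓS (Finset.mem_insert_of_mem h))
      (fun h => hℓS (h ▸ Finset.mem_insert_self q S₀))
    rwa [ih4Op_of_not_dvd O N hℓ hℓN] at h1
  have hyT := ihnLink_mem_YT p N lam S c hcT
  have h1 := key _ hyT
  rw [hTq, ← ihnLink_T, ← map_smul] at h1
  have h2 := (ihnLink p N O'').injective h1
  rw [ih4Op_of_not_dvd O N hq.out hqN]
  apply mltmo_cast_injective N O O'' hinj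
  rw [← mltmo_cast_homPar, mltmo_cast_smul]
  exact h2

end Tq

end Fermat.Agent.MLT
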