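/-
MLT / MO (helper3), part 7: **relative multiplicity one, the ring-free theorem (8)**.

`q ∤ N`, `q ≠ p`.  If the eigensystem `a` (away from `S₀ ∌ q`) occurs in the `θ`-part of level `N`, then
the third trace `θ₃ = c₁ ∘ c₂ : H(N q q) → H(N)` is injective on the part of the `a`-eigenspace (away
from `S₀ ∪ {q}`) of level `N q q` on which `U_q` is topologically nilpotent, and it maps the eigenspace
`X_{Σ ∪ q}(a)` into `X_Σ(a)`: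

* `mltmo_trace_inj`       : the injectivity;
* `mltmo_eig_finrank_le`  : `rank X'(a) ≤ rank X(a)` for `mlteEig` (helper1's eigenspaces);
* `mltmo_eig_finrank_le'` : the same with an arbitrary name `N'` for the level `N q q`.
-/
import Mathlib
import Fermat.Agent.Lib.MLT.MO.PairO2
import Fermat.Agent.Lib.MLT.MO.Coset
import Fermat.Agent.Lib.MLT.MO.Tq
import Fermat.Agent.Lib.MLT.Eta.Growth

set_option autoImplicit false
set_option linter.unusedSectionVars false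
set_option linter.unusedVariables false
set_option linter.style.haveILetI false

open IsLocalRing Fermat.Agent.Ihara Fermat.Agent.T1 Fermat.Agent.T2 Fermat.Agent.T4
  CongruenceSubgroup ModularCurve.Period

namespace Fermat.Agent.MLT

noncomputable section

/-! ### Eigenspaces in the full Betti module -/

section Eig

variable (O : Type) [CommRing O] [IsDomain O] [CharZero O]

/-- the eigenspace away from `S` in the full Betti module of level `M` -/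
def mltmoE (M : ℕ) [NeZero M] (S : Finset ℕ) (a : ℕ → O) : Submodule O (Ih4H O O M) where
  carrier := {x | ∀ ℓ : ℕ, ℓ.Prime → ℓ ∉ S → ih4Op O M ℓ x = a ℓ • x}
  add_mem' := by
    intro x y hx hy ℓ hℓ hℓS
    rw [map_add, hx ℓ hℓ hℓS, hy ℓ hℓ hℓS, smul_add]
  zero_mem' := by
    intro ℓ hℓ hℓS
    rw [map_zero, smul_zero]
  smul_mem' := by
    intro c x hx ℓ hℓ hℓS
    rw [map_smul, hx ℓ hℓ hℓS, smul_comm]

variable {O}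

theorem mltmo_mem_E {M : ℕ} [NeZero M] {S : Finset ℕ} {a : ℕ → O} {x : Ih4H O O M} :
    x ∈ mltmoE O M S a ↔ ∀ ℓ : ℕ, ℓ.Prime → ℓ ∉ S → ih4Op O M ℓ x = a ℓ • x := Iff.rfl

/-- an equivariant map preserves the eigenspaces -/
theorem mltmo_map_mem_E {M M' : ℕ} [NeZero M] [NeZero M'] (f : Ih4H O O M →ₗ[O] Ih4H O O M')
    (S : Finset ℕ) (a : ℕ → O)
    (hf : ∀ ℓ : ℕ, ℓ.Prime → ℓ ∉ S → ∀ x, f (ih4Op O M ℓ x) = ih4Op O M' ℓ (f x))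
    {x : Ih4H O O M} (hx : x ∈ mltmoE O M S a) : f x ∈ mltmoE O M' S a := by
  intro ℓ hℓ hℓS
  rw [← hf ℓ hℓ hℓS, hx ℓ hℓ hℓS, map_smul]

end Eig

/-! ### Two small facts about eigenvectors -/

section Small

variable {O : Type} [CommRing O] [IsLocalRing O] {H : Type*} [AddCommGroup H] [Module O H]

/-- an eigenvector with eigenvalue `≡ t` is in the part where `T - t` is topologically nilpotent -/
theorem mltmo_nil_of_eigen (T : Module.End O H) (t c : O) (hc : c - t ∈ maximalIdeal O) (x : H)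
    (hx : T x = c • x) :
    x ∈ ih4pNil1 (maximalIdeal O) (T - algebraMap O (Module.End O H) t) := by
  have hS : ∀ n : ℕ, ((T - algebraMap O (Module.End O H) t) ^ n) x = (c - t) ^ n • x := by
    intro n
    induction n with
    | zero => simp
    | succ n ih =>
      rw [pow_succ', Module.End.mul_apply, ih, map_smul, LinearMap.sub_apply, hx,
        Module.algebraMap_end_apply]
      module
  intro n
  refine ⟨n, ?_⟩
  rw [hS n]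
  exact Submodule.smul_mem_smul (Ideal.pow_mem_pow hc n) Submodule.mem_top

end Small

/-! ### Injectivity of the third trace -/

section Inj

variable {p : ℕ} [hp : Fact p.Prime]
  (O : Type) [CommRing O] [IsDomain O] [IsDiscreteValuationRing O]
  [IsAdicComplete (maximalIdeal O) O] [Finite (ResidueField O)] [CharZero O]
  (hpO : (p : O) ∈ maximalIdeal O)
  (N q : ℕ) [NeZero N] [hq : Fact q.Prime] (hqN : ¬ q ∣ N) (hqp : q ≠ p) (S₀ : Finset ℕ)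
  (hpS : p ∈ S₀) (hqS : q ∉ S₀) (hNS : ∀ ℓ : ℕ, ℓ.Prime → ℓ ∣ N → ℓ ∈ S₀)
  (a : ℕ → O) (x₀ : Ih4H O O N) (hx₀ : x₀ ≠ 0)
  (hT : ∀ ℓ : ℕ, ℓ.Prime → ℓ ∉ S₀ → ih4Op O N ℓ x₀ = a ℓ • x₀)

include hpO hqp in
/-- `q` is a unit of `O` -/
theorem mltmo_isUnit_q : IsUnit ((q : ℕ) : O) := by
  by_contra hnu
  have hqm : ((q : ℕ) : O) ∈ maximalIdeal O := (mem_maximalIdeal _).2 hnu
  have hcop : Nat.Coprime q p := (Nat.coprime_primes hq.out hp.out).2 hqp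
  obtain ⟨u, v, huv⟩ := Nat.Coprime.isCoprime hcop
  have h1 : ((u : ℤ) : O) * ((q : ℕ) : O) + ((v : ℤ) : O) * ((p : ℕ) : O) = 1 := by
    have := congrArg (Int.cast : ℤ → O) huv
    push_cast at this
    exact this
  have h2 : (1 : O) ∈ maximalIdeal O := by
    rw [← h1]
    exact Ideal.add_mem _ (Ideal.mul_mem_left _ _ hqm) (Ideal.mul_mem_left _ _ hpO)
  exact (Ideal.ne_top_iff_one _).1 (maximalIdeal.isMaximal O).ne_top h2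

include hpO hqN hqp hpS hqS hNS hx₀ hT in
/-- **relative multiplicity one**: the third trace `c₁ ∘ c₂` is injective on the part of the
`a`-eigenspace of level `N q q` on which `U_q` is topologically nilpotent -/
theorem mltmo_trace_inj (y : Ih4H O O (N * q * q))
    (hy : y ∈ mltmoE O (N * q * q) (insert q S₀) a)
    (hnil : y ∈ ih4pNil1 (maximalIdeal O) (ih4Op O (N * q * q) q))
    (h0 : ih4Cor N q hqN O O (mltmoC2 O N q y) = 0) : y = 0 := by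
  obtain ⟨u, hu⟩ := mltmo_isUnit_q O hpO q hqp
  have hq' : ((u⁻¹ : Oˣ) : O) * ((q : ℕ) : O) = 1 := by rw [← hu]; exact Units.inv_mul u
  set S : Finset ℕ := insert q S₀ with hS
  have hℓq : ∀ ℓ : ℕ, ℓ ∉ S → ℓ ≠ q := fun ℓ h e => h (e ▸ Finset.mem_insert_self q S₀)
  have hℓS₀ : ∀ ℓ : ℕ, ℓ ∉ S → ℓ ∉ S₀ := fun ℓ h h' => h (Finset.mem_insert_of_mem h')
  have hqSS : q ∈ S := Finset.mem_insert_self q S₀
  have hpSS : p ∈ S := Finset.mem_insert_of_mem hpS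
  have hNSS : ∀ ℓ : ℕ, ℓ.Prime → ℓ ∣ N → ℓ ∈ S := fun ℓ hℓ hd =>
    Finset.mem_insert_of_mem (hNS ℓ hℓ hd)
  have hTS : ∀ ℓ : ℕ, ℓ.Prime → ℓ ∉ S → ih4Op O N ℓ x₀ = a ℓ • x₀ := fun ℓ hℓ hℓS =>
    hT ℓ hℓ (hℓS₀ ℓ hℓS)
  have hU₂ : ih4Op O (N * q * q) q
      = ih4U O O (N * q * q) q (Dvd.intro_left (N * q) rfl) hq.out.ne_zero :=
    ih4Op_of_dvd O (N * q * q) hq.out _
  -- the adjoints
  set r₂' : Ih4H O O (N * q * q) →ₗ[O] Ih4H O O (N * q) :=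
    (mlteWPar (N * q) O O).comp ((mltmoC2 O N q).comp (mlteWPar (N * q * q) O O)) with hr₂'
  have hr : ∀ y ∈ mltmoE O (N * q * q) S a, r₂' y ∈ mltmoE O (N * q) S a := by
    intro y hy
    refine mltmo_map_mem_E r₂' S a (fun ℓ hℓ hℓS x => ?_) hy
    exact mltmo_adj_comm O (N * q) (N * q * q) (ih4Res (N * q) q O O) r₂'
      (fun c y => mltmo_pairO_r2 O N q c y) ℓ
      (fun c => ih4Op_res O (N * q) q (hℓq ℓ hℓS) c) x
  have hd : ∀ y ∈ mltmoE O (N * q * q) S a, mltmoC2 O N q y ∈ mltmoE O (N * q) S a := by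
    intro y hy
    refine mltmo_map_mem_E (mltmoC2 O N q) S a (fun ℓ hℓ hℓS x => ?_) hy
    exact mltmo_adj_comm O (N * q) (N * q * q) (mlteDegPar (N * q) q hq.out.ne_zero O O)
      (mltmoC2 O N q) (fun c y => mltmo_pairO_d2 O N q c y) ℓ
      (fun c => mltmo_op_deg O (N * q) q (hℓq ℓ hℓS) c) x
  have hU : ∀ y ∈ mltmoE O (N * q * q) S a,
      ih4U O O (N * q * q) q (Dvd.intro_left (N * q) rfl) hq.out.ne_zero y
        ∈ mltmoE O (N * q * q) S a := by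
    intro y hy
    rw [← hU₂]
    refine mltmo_map_mem_E (ih4Op O (N * q * q) q) S a (fun ℓ hℓ hℓS x => ?_) hy
    have := LinearMap.congr_fun (ih4Op_commute O (N * q * q) q ℓ).eq x
    rwa [Module.End.mul_apply, Module.End.mul_apply] at this
  have h1 : ∀ c ∈ mltmoE O (N * q) S a,
      ((ih4Cor N q hqN O O).comp (ih4W N q hqN O O)) c = 0 → ih4Cor N q hqN O O c = 0 → c = 0 := by
    intro c hc e1 e2
    exact mltmo_no_new_one O hpO N q hqN hqp S hpSS hqSS hNSS a x₀ hx₀ hTS c hc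
      (ih4_mem_K.2 ⟨e2, e1⟩)
  have h2 : ∀ y ∈ mltmoE O (N * q * q) S a, r₂' y = 0 → mltmoC2 O N q y = 0 → y = 0 := by
    intro y hy e1 e2
    have hUy : ih4U O O (N * q * q) q (Dvd.intro_left (N * q) rfl) hq.out.ne_zero y = 0 := by
      apply mltePairO_nondeg
      intro z
      rw [← mltePairO_U, mltmo_U2_eq_res_corU N q O O z]
      have := mltmo_pairO_r2 O N q ((t4gSysCU (N * q) q (mltmo_q_dvd N q)).corPar O O z) y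
      rw [this]
      have e1' : mlteWPar (N * q) O O (mltmoC2 O N q (mlteWPar (N * q * q) O O y)) = 0 := e1
      rw [e1', map_zero]
    have hUWy := mltmo_U2_W2_eq_zero N q hqN O O y e2
    exact mltmo_no_new_two O hpO N q hqN hqp S hpSS hqSS hNSS a x₀ hx₀ hTS y hy hUy hUWy
  have hnil' : y ∈ ih4pNil1 (maximalIdeal O)
      (ih4U O O (N * q * q) q (Dvd.intro_left (N * q) rfl) hq.out.ne_zero) := by
    rw [← hU₂]; exact hnil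
  have key := mltmo_abs (mltmo_deg_inst O N q hqN) (mltmo_adj_inst O N q hqN) hq' (maximalIdeal O)
    (fun z hz => ih4p_eq_zero_of_forall_mem O hz)
    (mltmoE O (N * q) S a) (mltmoE O (N * q * q) S a) hr hd hU h1 h2 hy hnil'
  exact key.2.2.2 h0

end Inj

/-! ### The rank inequality -/

section Rank

variable {𝒪 : Type} [CommRing 𝒪] [IsDomain 𝒪] [IsDiscreteValuationRing 𝒪] [CharZero 𝒪]
  [IsAdicComplete (maximalIdeal 𝒪) 𝒪] [Finite (ResidueField 𝒪)]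

/-- an eigenvalue of `ih4Op ℓ` on the `θ`-part is congruent to `θ ℓ` modulo `𝔪` -/
theorem mltmo_eig_sub_mem (M : ℕ) [NeZero M] (Ps : Set ℕ) (θ : ℕ → 𝒪) {ℓ : ℕ} (hℓ : ℓ ∈ Ps)
    (x : Ih4H 𝒪 𝒪 M) (hx : x ∈ ih4Part 𝒪 M Ps θ) (hx0 : x ≠ 0) (c : 𝒪)
    (hxc : ih4Op 𝒪 M ℓ x = c • x) : c - θ ℓ ∈ maximalIdeal 𝒪 := by
  by_contra hu
  have hu' : IsUnit (c - θ ℓ) := by
    by_contra h
    exact hu ((mem_maximalIdeal _).2 h)
  obtain ⟨u, hu''⟩ := hu'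
  apply hx0
  have hS : ∀ n : ℕ, ((ih4Op 𝒪 M ℓ - algebraMap 𝒪 (Module.End 𝒪 (Ih4H 𝒪 𝒪 M)) (θ ℓ)) ^ n) x
      = (c - θ ℓ) ^ n • x := by
    intro n
    induction n with
    | zero => simp
    | succ n ih =>
      rw [pow_succ', Module.End.mul_apply, ih, map_smul, LinearMap.sub_apply, hxc,
        Module.algebraMap_end_apply]
      module
  have hnil := (ih4_mem_part 𝒪).1 hx ℓ hℓ
  refine ih4p_eq_zero_of_forall_mem 𝒪 fun n => ?_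
  obtain ⟨K, hK⟩ := hnil n
  rw [hS K] at hK
  have h2 : x = ((u⁻¹ : 𝒪ˣ) : 𝒪) ^ K • ((c - θ ℓ) ^ K • x) := by
    rw [smul_smul, ← mul_pow, ← hu'', Units.inv_mul, one_pow, one_smul]
  rw [h2]
  exact Submodule.smul_mem _ _ hK

/-- **(8) relative multiplicity one**: `rank X_{Σ ∪ q}(a) ≤ rank X_Σ(a)` -/
theorem mltmo_eig_finrank_le (N q p : ℕ) [NeZero N] [hq : Fact q.Prime] [hpp : Fact p.Prime]
    (h : ¬ q ∣ N) (Ps Ps' : Set ℕ) (θ θ' : ℕ → 𝒪)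
    (hPs : ∀ ℓ ∈ Ps, ℓ ≠ q → ℓ ∈ Ps' ∧ θ' ℓ = θ ℓ) (hqPs' : q ∈ Ps') (hθq : θ' q = 0)
    (S₀ : Finset ℕ) (hpS : p ∈ S₀) (hqS : q ∉ S₀) (hNS : ∀ ℓ : ℕ, ℓ.Prime → ℓ ∣ N → ℓ ∈ S₀)
    (G G' : Set ℕ) (hG : ∀ ℓ, ℓ ∈ G ↔ ℓ.Prime ∧ ℓ ∉ S₀)
    (hG' : ∀ ℓ, ℓ ∈ G' ↔ ℓ.Prime ∧ ℓ ∉ S₀ ∧ ℓ ≠ q)
    (a : ℕ → 𝒪) (hpq : p ≠ q) (hp : ((p : ℕ) : 𝒪) ∈ maximalIdeal 𝒪)
    (hX : mlteEig 𝒪 N Ps θ G a ≠ ⊥) :
    Module.finrank 𝒪 ↥(mlteEig 𝒪 (N * q * q) Ps' θ' G' a)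
      ≤ Module.finrank 𝒪 ↥(mlteEig 𝒪 N Ps θ G a) := by
  obtain ⟨x₀', hx₀', hx₀'0⟩ := Submodule.exists_mem_ne_zero_of_ne_bot hX
  set x₀ : Ih4H 𝒪 𝒪 N := x₀'.1 with hx₀def
  have hx₀ : x₀ ≠ 0 := fun e => hx₀'0 (Subtype.ext e)
  have hx₀P : x₀ ∈ ih4Part 𝒪 N Ps θ := x₀'.2
  have hT : ∀ ℓ : ℕ, ℓ.Prime → ℓ ∉ S₀ → ih4Op 𝒪 N ℓ x₀ = a ℓ • x₀ := fun ℓ hℓ hℓS =>
    hx₀' ℓ ((hG ℓ).2 ⟨hℓ, hℓS⟩)
  have hqp : q ≠ p := fun e => hpq e.symm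
  -- the third trace
  set f₀ : Ih4H 𝒪 𝒪 (N * q * q) →ₗ[𝒪] Ih4H 𝒪 𝒪 N :=
    (ih4Cor N q h 𝒪 𝒪).comp (mltmoC2 𝒪 N q) with hf₀
  have hcomm : ∀ ℓ : ℕ, ℓ ≠ q → ∀ y, f₀ (ih4Op 𝒪 (N * q * q) ℓ y) = ih4Op 𝒪 N ℓ (f₀ y) := by
    intro ℓ hℓq y
    have e1 := mltmo_adj_comm 𝒪 (N * q) (N * q * q) (mlteDegPar (N * q) q hq.out.ne_zero 𝒪 𝒪)
      (mltmoC2 𝒪 N q) (fun c y => mltmo_pairO_d2 𝒪 N q c y) ℓ
      (fun c => mltmo_op_deg 𝒪 (N * q) q hℓq c) y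
    rw [hf₀, LinearMap.comp_apply, LinearMap.comp_apply, e1, ih4Op_cor 𝒪 N q h hℓq]
  -- the image of an eigenvector
  have himg : ∀ y' : ↥(ih4Part 𝒪 (N * q * q) Ps' θ'), y' ∈ mlteEig 𝒪 (N * q * q) Ps' θ' G' a →
      (∀ ℓ : ℕ, ℓ.Prime → ℓ ∉ S₀ → ih4Op 𝒪 N ℓ (f₀ y'.1) = a ℓ • f₀ y'.1) := by
    intro y' hy'
    have hne : ∀ ℓ : ℕ, ℓ.Prime → ℓ ∉ S₀ → ℓ ≠ q → ih4Op 𝒪 N ℓ (f₀ y'.1) = a ℓ • f₀ y'.1 := by
      intro ℓ hℓ hℓS hℓq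
      rw [← hcomm ℓ hℓq, hy' ℓ ((hG' ℓ).2 ⟨hℓ, hℓS, hℓq⟩), map_smul]
    intro ℓ hℓ hℓS
    by_cases hℓq : ℓ = q
    · rw [hℓq]
      exact mltmo_Tq_eigen 𝒪 hp N q h hqp S₀ hpS hqS hNS a x₀ hx₀ hT (f₀ y'.1) hne
    · exact hne ℓ hℓ hℓS hℓq
  have hpart : ∀ y' : ↥(ih4Part 𝒪 (N * q * q) Ps' θ'), y' ∈ mlteEig 𝒪 (N * q * q) Ps' θ' G' a →
      f₀ y'.1 ∈ ih4Part 𝒪 N Ps θ := by
    intro y' hy'
    rw [ih4_mem_part]
    intro ℓ hℓ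
    by_cases hℓq : ℓ = q
    · rw [hℓq] at hℓ ⊢
      have hqpr : q.Prime := hq.out
      refine mltmo_nil_of_eigen (ih4Op 𝒪 N q) (θ q) (a q) ?_ _ (himg y' hy' q hqpr hqS)
      exact mltmo_eig_sub_mem N Ps θ hℓ x₀ hx₀P hx₀ (a q) (hT q hqpr hqS)
    · obtain ⟨h1, h2⟩ := hPs ℓ hℓ hℓq
      have hy'P := (ih4_mem_part 𝒪).1 y'.2 ℓ h1
      refine ih4pNil1_map (f := f₀) (fun y => ?_) hy'P
      rw [LinearMap.sub_apply, LinearMap.sub_apply, map_sub, hcomm ℓ hℓq, h2,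
        Module.algebraMap_end_apply, Module.algebraMap_end_apply, map_smul]
  -- the map on the eigenspaces
  let F₁ : ↥(mlteEig 𝒪 (N * q * q) Ps' θ' G' a) →ₗ[𝒪] ↥(ih4Part 𝒪 N Ps θ) :=
    LinearMap.codRestrict (ih4Part 𝒪 N Ps θ)
      ((f₀.comp (ih4Part 𝒪 (N * q * q) Ps' θ').subtype).comp
        (mlteEig 𝒪 (N * q * q) Ps' θ' G' a).subtype)
      (fun y'' => hpart y''.1 y''.2)
  let F : ↥(mlteEig 𝒪 (N * q * q) Ps' θ' G' a) →ₗ[𝒪] ↥(mlteEig 𝒪 N Ps θ G a) :=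
    LinearMap.codRestrict (mlteEig 𝒪 N Ps θ G a) F₁
      (fun y'' ℓ hℓ => himg y''.1 y''.2 ℓ ((hG ℓ).1 hℓ).1 ((hG ℓ).1 hℓ).2)
  refine LinearMap.finrank_le_finrank_of_injective (f := F) ?_
  rw [injective_iff_map_eq_zero]
  intro y'' hy''
  have h0 : f₀ y''.1.1 = 0 := congrArg (fun z => z.1.1) hy''
  have hyE : y''.1.1 ∈ mltmoE 𝒪 (N * q * q) (insert q S₀) a := by
    intro ℓ hℓ hℓS
    refine y''.2 ℓ ((hG' ℓ).2 ⟨hℓ, fun h' => hℓS (Finset.mem_insert_of_mem h'), fun e => hℓS ?_⟩)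
    rw [e]
    exact Finset.mem_insert_self q S₀
  have hnil : y''.1.1 ∈ ih4pNil1 (maximalIdeal 𝒪) (ih4Op 𝒪 (N * q * q) q) := by
    have := (ih4_mem_part 𝒪).1 y''.1.2 q hqPs'
    rw [hθq, map_zero] at this
    have e : ih4Op 𝒪 (N * q * q) q - 0 = ih4Op 𝒪 (N * q * q) q :=
      LinearMap.ext fun z => by rw [LinearMap.sub_apply, LinearMap.zero_apply, sub_zero]
    rwa [e] at this
  have := mltmo_trace_inj 𝒪 hp N q h hqp S₀ hpS hqS hNS a x₀ hx₀ hT y''.1.1 hyE hnil h0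
  exact Subtype.ext (Subtype.ext this)

/-- the same with an arbitrary name `N'` for the level `N q q` -/
theorem mltmo_eig_finrank_le' (N N' q p : ℕ) [NeZero N] [NeZero N'] [hq : Fact q.Prime]
    [hpp : Fact p.Prime] (hN' : N' = N * q * q)
    (h : ¬ q ∣ N) (Ps Ps' : Set ℕ) (θ θ' : ℕ → 𝒪)
    (hPs : ∀ ℓ ∈ Ps, ℓ ≠ q → ℓ ∈ Ps' ∧ θ' ℓ = θ ℓ) (hqPs' : q ∈ Ps') (hθq : θ' q = 0)
    (S₀ : Finset ℕ) (hpS : p ∈ S₀) (hqS : q ∉ S₀) (hNS : ∀ ℓ : ℕ, ℓ.Prime → ℓ ∣ N → ℓ ∈ S₀)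
    (G G' : Set ℕ) (hG : ∀ ℓ, ℓ ∈ G ↔ ℓ.Prime ∧ ℓ ∉ S₀)
    (hG' : ∀ ℓ, ℓ ∈ G' ↔ ℓ.Prime ∧ ℓ ∉ S₀ ∧ ℓ ≠ q)
    (a : ℕ → 𝒪) (hpq : p ≠ q) (hp : ((p : ℕ) : 𝒪) ∈ maximalIdeal 𝒪)
    (hX : mlteEig 𝒪 N Ps θ G a ≠ ⊥) :
    Module.finrank 𝒪 ↥(mlteEig 𝒪 N' Ps' θ' G' a)
      ≤ Module.finrank 𝒪 ↥(mlteEig 𝒪 N Ps θ G a) := by
  subst hN'
  exact mltmo_eig_finrank_le N q p h Ps Ps' θ θ' hPs hqPs' hθq S₀ hpS hqS hNS G G' hG hG' a hpq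
    hp hX

end Rank

end

end Fermat.Agent.MLT
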