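/-
MLT / MO (helper3), part 8: **(8) relative multiplicity one in the literal shape of
`Contracts/Step.lean`** (helper6):

* `mltmo_multOne         : MltcMultOneAt 𝒪 B` — `rank X_{Σ ∪ q}(a) ≤ rank X_Σ(a)` if `X_Σ(a) ≠ 0`;
* `mltmo_multOneContract : MltcMultOneContract`.

The glue (`mltcEig_eq_mlteEig`, `mlteGood`, …) is helper1's `Eta/StepInputs.lean`.
-/
import Mathlib
import Fermat.Agent.Lib.MLT.MO.Main
import Fermat.Agent.Lib.MLT.Eta.StepInputs

set_option autoImplicit false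
set_option linter.unusedSectionVars false
set_option linter.unusedVariables false
set_option linter.style.haveILetI false

open IsLocalRing Fermat.Agent.Ihara

namespace Fermat.Agent.MLT

noncomputable section

variable (𝒪 : Type) [CommRing 𝒪] [IsDomain 𝒪] [IsDiscreteValuationRing 𝒪] [CharZero 𝒪]
  [IsAdicComplete (maximalIdeal 𝒪) 𝒪] [Finite (ResidueField 𝒪)]

/-- **(8)** relative multiplicity one -/
theorem mltmo_multOne (B : MltBase 𝒪) : MltcMultOneAt 𝒪 B := by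
  intro hB hp35 hS0 Sig q hSig hq hqS0 hqSig _ _ a hX
  haveI : Fact q.Prime := ⟨hq⟩
  haveI : Fact B.p.Prime := ⟨hB.prime⟩
  have hN' : B.level (insert q Sig) = B.level Sig * q * q := by
    rw [B.level_insert Sig hqSig]
    ring
  have hqG := mlte_q_good (B := B) hq hqS0 hqSig
  have hpq : B.p ≠ q := fun h => hqS0 (h ▸ hB.Smin_sub hB.p_mem_Smin)
  have hmem : ∀ ℓ : ℕ, ℓ ≠ q → (ℓ ∈ insert q Sig ↔ ℓ ∈ Sig) := by
    intro ℓ hℓq
    rw [Finset.mem_insert]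
    exact ⟨fun h => h.resolve_left hℓq, Or.inr⟩
  have hbad : ∀ ℓ : ℕ, ℓ ∈ B.bad (insert q Sig) ↔ ℓ ∈ B.bad Sig ∨ ℓ = q := by
    intro ℓ
    unfold MltBase.bad
    rw [Finset.mem_union, Finset.mem_union, Finset.mem_insert]
    tauto
  have hPs : ∀ ℓ ∈ B.Ps Sig, ℓ ≠ q →
      ℓ ∈ B.Ps (insert q Sig) ∧ B.theta (insert q Sig) ℓ = B.theta Sig ℓ := by
    intro ℓ hℓ hℓq
    refine ⟨?_, ?_⟩
    · rcases hℓ with ⟨h1, h2⟩ | h | h
      · refine Or.inl ⟨h1, fun hb => ?_⟩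
        rcases (hbad ℓ).1 hb with h | h
        · exact h2 h
        · exact hℓq h
      · exact Or.inr (Or.inl ((hmem ℓ hℓq).2 h))
      · exact Or.inr (Or.inr h)
    · unfold MltBase.theta
      simp only [hmem ℓ hℓq]
  have hqPs' : q ∈ B.Ps (insert q Sig) := Or.inr (Or.inl (Finset.mem_insert_self q Sig))
  have hθq : B.theta (insert q Sig) q = 0 :=
    B.theta_of_mem (insert q Sig) (Finset.mem_insert_self q Sig)
  have hpS : B.p ∈ B.bad Sig := Finset.mem_union_left _ (hB.Smin_sub hB.p_mem_Smin)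
  have hG' : ∀ ℓ, ℓ ∈ mlteGood B (insert q Sig) ↔ ℓ.Prime ∧ ℓ ∉ B.bad Sig ∧ ℓ ≠ q := by
    intro ℓ
    show (ℓ.Prime ∧ ℓ ∉ B.bad (insert q Sig)) ↔ _
    rw [hbad ℓ, not_or]
  rw [mltcEig_eq_mlteEig] at hX
  rw [mltcEig_eq_mlteEig, mltcEig_eq_mlteEig]
  exact mltmo_eig_finrank_le' (B.level Sig) (B.level (insert q Sig)) q B.p hN'
    (mlte_good_not_dvd B hB Sig hSig hqG) (B.Ps Sig) (B.Ps (insert q Sig)) (B.theta Sig)
    (B.theta (insert q Sig)) hPs hqPs' hθq (B.bad Sig) hpS hqG.2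
    (fun ℓ hℓ hd => mlte_prime_dvd_level B hB Sig hSig hℓ hd)
    (mlteGood B Sig) (mlteGood B (insert q Sig)) (fun ℓ => Iff.rfl) hG' a hpq hB.mem hX

/-- **contract (8)** -/
theorem mltmo_multOneContract : MltcMultOneContract := fun 𝒪 _ _ _ _ _ _ B => mltmo_multOne 𝒪 B

end

end Fermat.Agent.MLT
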